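/-
Chapter (EC) of S41, brick (EC-b) (helper20): two points of a Weierstrass curve with integral
coefficients whose coordinates are integral and congruent modulo the maximal ideal differ by an
element of the kernel of reduction `E₁`, provided the reduction is not a 2-torsion point.
Corollary: two such points killed by `n` with `v n = 1` are equal.
-/
import Mathlib
import Fermat.Agent.S05.Kernel

set_option autoImplicit false

open WeierstrassCurve WeierstrassCurve.Affine

namespace Fermat.Agent.ES.EC.CongE1_20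

open Fermat.Agent.S05.Kernel

variable {K : Type*} [Field K] [DecidableEq K] {Γ₀ : Type*}
  [LinearOrderedCommGroupWithZero Γ₀] {v : Valuation K Γ₀} {W : Affine K}

/-- **(EC-b).**  Congruent integral points differ by an element of `E₁`. -/
theorem sub_inE1_of_congruent (hW : IntegralCoeffs v W) {x₁ y₁ x₂ y₂ : K}
    (h₁ : W.Nonsingular x₁ y₁) (h₂ : W.Nonsingular x₂ y₂)
    (hx₁ : v x₁ ≤ 1) (hx₂ : v x₂ ≤ 1)
    (hx : v (x₁ - x₂) < 1) (hy : v (y₁ - y₂) < 1)
    (hu : v (2 * y₂ + W.a₁ * x₂ + W.a₃) = 1) :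
    InE1 v (Point.some x₁ y₁ h₁ - Point.some x₂ y₂ h₂) := by
  obtain ⟨ha₁, ha₂, ha₃, ha₄, ha₆⟩ := hW
  rw [sub_eq_add_neg, Point.neg_some]
  by_cases hxx : x₁ = x₂
  · -- same `x`: the points are equal
    have hyy : y₁ = y₂ := by
      rcases Y_eq_of_X_eq h₁.1 h₂.1 hxx with h | h
      · exact h
      · exfalso
        have e : y₁ - y₂ = -(2 * y₂ + W.a₁ * x₂ + W.a₃) := by
          rw [h, negY]; ring
        rw [e, Valuation.map_neg, hu] at hy
        exact lt_irrefl _ hy
    subst hxx; subst hyy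
    have : Point.some x₁ y₁ h₁ + Point.some x₁ (W.negY x₁ y₁) ((nonsingular_neg ..).mpr h₁)
        = 0 := by
      have := add_neg_cancel (Point.some x₁ y₁ h₁)
      rwa [Point.neg_some] at this
    rw [this]
    exact inE1_zero v
  · -- different `x`: estimate the slope
    rw [Point.add_of_X_ne hxx, inE1_some]
    rw [slope_of_X_ne hxx]
    set d := x₁ - x₂ with hd
    have hd0 : d ≠ 0 := sub_ne_zero.mpr hxx
    set n := y₁ - W.negY x₂ y₂ with hn
    have hn1 : v n = 1 := by
      have e : n = (y₁ - y₂) + (2 * y₂ + W.a₁ * x₂ + W.a₃) := by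
        rw [hn, negY]; ring
      rw [e, v.map_add_eq_of_lt_right (by rw [hu]; exact hy), hu]
    set L := n / d with hL
    have hvd0 : v d ≠ 0 := (Valuation.ne_zero_iff v).mpr hd0
    have hvL : 1 < v L := by
      rw [hL, map_div₀, hn1, one_div]
      exact (one_lt_inv₀ (zero_lt_iff.mpr hvd0)).mpr hx
    -- `v (L^2)` dominates the rest
    have hvL2 : v (L ^ 2) = v L ^ 2 := map_pow v L 2
    have hLlt : v L < v L ^ 2 := by
      have hpos : 0 < v L := lt_trans zero_lt_one hvL
      calc v L = v L * 1 := (mul_one _).symm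
        _ < v L * v L := by
            exact mul_lt_mul_of_pos_left hvL hpos
        _ = v L ^ 2 := (sq _).symm
    have hrest : v (W.a₁ * L - W.a₂ - x₁ - x₂) ≤ v L := by
      have t1 : v (W.a₁ * L) ≤ v L := by
        rw [map_mul]
        calc v W.a₁ * v L ≤ 1 * v L := mul_le_mul_left ha₁ _
          _ = v L := one_mul _
      have t2 : v W.a₂ ≤ v L := ha₂.trans hvL.le
      have t3 : v x₁ ≤ v L := hx₁.trans hvL.le
      have t4 : v x₂ ≤ v L := hx₂.trans hvL.le
      exact v.map_sub_le (v.map_sub_le (v.map_sub_le t1 t2) t3) t4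
    have hsum : W.addX x₁ x₂ L = L ^ 2 + (W.a₁ * L - W.a₂ - x₁ - x₂) := by
      rw [addX]; ring
    rw [hsum, v.map_add_eq_of_lt_left (by rw [hvL2]; exact lt_of_le_of_lt hrest hLlt),
      hvL2]
    exact lt_trans hvL hLlt

/-- Corollary: congruent torsion points of order prime to the residue characteristic are
equal (as soon as the reduction is not 2-torsion). -/
theorem eq_of_congruent_of_nsmul_eq_zero (hW : IntegralCoeffs v W) {x₁ y₁ x₂ y₂ : K}
    (h₁ : W.Nonsingular x₁ y₁) (h₂ : W.Nonsingular x₂ y₂)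
    (hx : v (x₁ - x₂) < 1) (hy : v (y₁ - y₂) < 1)
    (hu : v (2 * y₂ + W.a₁ * x₂ + W.a₃) = 1)
    {n : ℕ} (hn : v (n : K) = 1)
    (hP : n • Point.some x₁ y₁ h₁ = 0) (hQ : n • Point.some x₂ y₂ h₂ = 0) :
    Point.some x₁ y₁ h₁ = Point.some x₂ y₂ h₂ := by
  have hx₁ := x_integral_of_nsmul_eq_zero hW h₁ hn hP
  have hx₂ := x_integral_of_nsmul_eq_zero hW h₂ hn hQ
  have hE := sub_inE1_of_congruent hW h₁ h₂ hx₁ hx₂ hx hy hu
  have hk : n • (Point.some x₁ y₁ h₁ - Point.some x₂ y₂ h₂) = 0 := by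
    rw [smul_sub, hP, hQ, sub_zero]
  exact sub_eq_zero.mp (eq_zero_of_nsmul_eq_zero hW hE hn hk)

end Fermat.Agent.ES.EC.CongE1_20
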