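/-
Chapter (EC) of S41, brick (EC-a) (helper20): a group acting on a 2-dimensional space such that
every element fixes a nonzero vector has a stable line.
-/
import Mathlib
import Fermat.Prelude.Def_FLTPrelim_GaloisRep

set_option autoImplicit false

namespace Fermat.Agent.ES.EC.FixedVec20

open Module

section Core

variable {F : Type*} [Field F] {V : Type*} [AddCommGroup V] [Module F V]

/-- An endomorphism of a 2-dimensional space with a nonzero fixed vector has
`trace = 1 + det`. -/
theorem trace_eq_one_add_det (h2 : finrank F V = 2) (f : V →ₗ[F] V) {v : V} (hv : v ≠ 0)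
    (hfv : f v = v) : LinearMap.trace F V f = 1 + LinearMap.det f := by
  classical
  have hfd : FiniteDimensional F V := FiniteDimensional.of_finrank_pos (by omega)
  let b : Basis (Fin 2) F V := finBasisOfFinrankEq F V h2
  set A := LinearMap.toMatrix b b f with hA
  have htr : LinearMap.trace F V f = A.trace := LinearMap.trace_eq_matrix_trace F b f
  have hdet : LinearMap.det f = A.det := (LinearMap.det_toMatrix b f).symm
  have hx : b.repr v ≠ 0 := by
    intro h0
    exact hv (b.repr.map_eq_zero_iff.mp h0)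
  have hAx : A.mulVec (b.repr v) = b.repr v := by
    rw [hA, LinearMap.toMatrix_mulVec_repr, hfv]
  have hker : (A - 1).mulVec (b.repr v) = 0 := by
    rw [Matrix.sub_mulVec, hAx, Matrix.one_mulVec, sub_self]
  have hd0 : (A - 1).det = 0 :=
    Matrix.exists_mulVec_eq_zero_iff.mp
      ⟨_, fun h => hx (DFunLike.coe_injective (by rw [h]; rfl)), hker⟩
  rw [htr, hdet, Matrix.trace_fin_two, Matrix.det_fin_two]
  rw [Matrix.det_fin_two] at hd0
  simp only [Matrix.sub_apply, Matrix.one_apply_eq, Matrix.one_apply_ne, ne_eq, Fin.isValue,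
    zero_ne_one, one_ne_zero, not_false_eq_true, sub_zero] at hd0
  linear_combination -hd0

/-- If `w` is not a multiple of `v ≠ 0` in a 2-dimensional space, then `(v, w)` is a basis. -/
theorem exists_basis_pair (h2 : finrank F V = 2) {v w : V} (hv : v ≠ 0)
    (hw : ∀ c : F, w ≠ c • v) : ∃ b : Basis (Fin 2) F V, b 0 = v ∧ b 1 = w := by
  classical
  have hli : LinearIndependent F ![v, w] := by
    rw [LinearIndependent.pair_iff]
    intro s t hst
    by_cases ht : t = 0
    · subst ht
      rw [zero_smul, add_zero] at hst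
      exact ⟨(smul_eq_zero.mp hst).resolve_right hv, rfl⟩
    · exfalso
      apply hw (-(t⁻¹ * s))
      have : t • w = -(s • v) := by
        rw [eq_neg_iff_add_eq_zero, add_comm]; exact hst
      calc w = t⁻¹ • (t • w) := by rw [smul_smul, inv_mul_cancel₀ ht, one_smul]
        _ = -(t⁻¹ * s) • v := by rw [this, smul_neg, smul_smul, neg_smul]
  refine ⟨basisOfLinearIndependentOfCardEqFinrank hli (by simp [h2]), ?_, ?_⟩
  · simp
  · simp

/-- **Core statement.** -/
theorem exists_common_eigenvector (h2 : finrank F V = 2) {G : Type*} [Group G]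
    (ρ : G →* (V →ₗ[F] V)) (hfix : ∀ g : G, ∃ v : V, v ≠ 0 ∧ ρ g v = v) :
    ∃ v0 : V, v0 ≠ 0 ∧ ∀ g : G, ∃ c : F, ρ g v0 = c • v0 := by
  classical
  have hfd : FiniteDimensional F V := FiniteDimensional.of_finrank_pos (by omega)
  have htrace : ∀ g : G, LinearMap.trace F V (ρ g) = 1 + LinearMap.det (ρ g) := by
    intro g
    obtain ⟨v, hv, hfv⟩ := hfix g
    exact trace_eq_one_add_det h2 (ρ g) hv hfv
  by_cases hN : ∃ n0 : G, LinearMap.det (ρ n0) = 1 ∧ ρ n0 ≠ 1
  · -- Case 1: a nontrivial element of determinant one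
    obtain ⟨n0, hdet, hne⟩ := hN
    obtain ⟨v1, hv1, hfv1⟩ := hfix n0
    refine ⟨v1, hv1, fun g => ?_⟩
    by_contra hcon
    push Not at hcon
    obtain ⟨b, hb0, hb1⟩ := exists_basis_pair h2 hv1 hcon
    set B0 : V →ₗ[F] V := ρ n0 - 1 with hB0
    have hB0v1 : B0 v1 = 0 := by
      rw [hB0, LinearMap.sub_apply, hfv1, Module.End.one_apply, sub_self]
    -- traces
    have htrB0 : LinearMap.trace F V B0 = 0 := by
      rw [hB0, map_sub, htrace, hdet, LinearMap.trace_one, h2]; norm_num
    have htrgB0 : LinearMap.trace F V (ρ g * B0) = 0 := by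
      have : ρ g * B0 = ρ (g * n0) - ρ g := by
        rw [hB0, mul_sub, mul_one, map_mul]
      rw [this, map_sub, htrace, htrace, map_mul, map_mul, hdet, mul_one]; ring
    -- matrix computation in the basis `(v1, ρ g v1)`
    rw [LinearMap.trace_eq_matrix_trace F b, Matrix.trace_fin_two] at htrB0 htrgB0
    simp only [LinearMap.toMatrix_apply, hb0, hb1, hB0v1, map_zero, Finsupp.coe_zero,
      Pi.zero_apply, zero_add, Module.End.mul_apply] at htrB0 htrgB0
    -- `B0 (ρ g v1) = t • v1 + s • ρ g v1`
    have hdecomp : B0 (ρ g v1) = b.repr (B0 (ρ g v1)) 0 • v1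
        + b.repr (B0 (ρ g v1)) 1 • ρ g v1 := by
      conv_lhs => rw [← b.sum_repr (B0 (ρ g v1))]
      rw [Fin.sum_univ_two, hb0, hb1]
    rw [htrB0, zero_smul, add_zero] at hdecomp
    -- now the second trace
    have hrepr1 : b.repr (ρ g v1) 1 = 1 := by
      rw [← hb1, b.repr_self]; simp
    rw [hdecomp, map_smul, map_smul, Finsupp.smul_apply, hrepr1, smul_eq_mul, mul_one]
      at htrgB0
    rw [htrgB0, zero_smul] at hdecomp
    -- so `B0 = 0`
    apply hne
    have hB0zero : B0 = 0 := by
      apply b.ext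
      intro i
      fin_cases i
      · simp only [Fin.zero_eta, Fin.isValue, hb0, hB0v1, LinearMap.zero_apply]
      · simp only [Fin.mk_one, Fin.isValue, hb1, hdecomp, LinearMap.zero_apply]
    rw [hB0, sub_eq_zero] at hB0zero
    exact hB0zero
  · -- Case 2: the determinant is injective on the image
    push Not at hN
    have hcomm : ∀ g h : G, ρ g * ρ h = ρ h * ρ g := by
      intro g h
      have hk : LinearMap.det (ρ (g * h * g⁻¹ * h⁻¹)) = 1 := by
        rw [map_mul, map_mul, map_mul, map_mul, map_mul, map_mul]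
        have e1 : LinearMap.det (ρ g) * LinearMap.det (ρ g⁻¹) = 1 := by
          rw [← map_mul, ← map_mul, mul_inv_cancel, map_one, map_one]
        have e2 : LinearMap.det (ρ h) * LinearMap.det (ρ h⁻¹) = 1 := by
          rw [← map_mul, ← map_mul, mul_inv_cancel, map_one, map_one]
        calc LinearMap.det (ρ g) * LinearMap.det (ρ h) * LinearMap.det (ρ g⁻¹)
              * LinearMap.det (ρ h⁻¹)
            = (LinearMap.det (ρ g) * LinearMap.det (ρ g⁻¹))
              * (LinearMap.det (ρ h) * LinearMap.det (ρ h⁻¹)) := by ring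
          _ = 1 := by rw [e1, e2, mul_one]
      have h1 := hN _ hk
      have : g * h = (g * h * g⁻¹ * h⁻¹) * (h * g) := by group
      rw [← map_mul, ← map_mul, this, map_mul, h1, one_mul]
    by_cases htriv : ∀ g : G, ρ g = 1
    · obtain ⟨v, hv, -⟩ := hfix 1
      exact ⟨v, hv, fun g => ⟨1, by rw [htriv g, Module.End.one_apply, one_smul]⟩⟩
    · push Not at htriv
      obtain ⟨g0, hg0⟩ := htriv
      obtain ⟨v1, hv1, hfv1⟩ := hfix g0
      refine ⟨v1, hv1, fun g => ?_⟩
      by_contra hcon
      push Not at hcon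
      obtain ⟨b, hb0, hb1⟩ := exists_basis_pair h2 hv1 hcon
      apply hg0
      apply b.ext
      intro i
      fin_cases i
      · simp only [Fin.zero_eta, Fin.isValue, hb0, hfv1, Module.End.one_apply]
      · simp only [Fin.mk_one, Fin.isValue, hb1, Module.End.one_apply]
        have := congrArg (fun T : V →ₗ[F] V => T v1) (hcomm g0 g)
        simp only [Module.End.mul_apply, hfv1] at this
        exact this

/-- **Stable line.** -/
theorem exists_stable_line (h2 : finrank F V = 2) {G : Type*} [Group G]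
    (ρ : G →* (V →ₗ[F] V)) (hfix : ∀ g : G, ∃ v : V, v ≠ 0 ∧ ρ g v = v) :
    ∃ L : Submodule F V, L ≠ ⊥ ∧ L ≠ ⊤ ∧ ∀ g : G, ∀ x ∈ L, ρ g x ∈ L := by
  obtain ⟨v0, hv0, hstab⟩ := exists_common_eigenvector h2 ρ hfix
  refine ⟨Submodule.span F {v0}, ?_, ?_, ?_⟩
  · rw [Ne, Submodule.span_singleton_eq_bot]; exact hv0
  · intro htop
    have h1 : finrank F (Submodule.span F {v0}) = 1 := finrank_span_singleton hv0
    rw [htop, finrank_top, h2] at h1
    omega
  · intro g x hx
    obtain ⟨a, rfl⟩ := Submodule.mem_span_singleton.mp hx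
    obtain ⟨c, hc⟩ := hstab g
    rw [map_smul, hc]
    exact Submodule.smul_mem _ _ (Submodule.smul_mem _ _ (Submodule.mem_span_singleton_self v0))

end Core

section Galois

open WeierstrassCurve WeierstrassCurve.Affine WeierstrassCurve.Affine.Point

universe r s v

variable {R : Type r} {S : Type s} {K : Type v} [CommRing R] [CommRing S] [Field K]
  [DecidableEq K] {W' : Affine R} [Algebra R S] [Algebra R K] [Algebra S K]
  [IsScalarTower R S K]

/-- The Galois action on `E[p]` as a homomorphism to `ZMod p`-linear endomorphisms. -/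
noncomputable def galRep (p : ℕ) :
    (K ≃ₐ[S] K) →* ((Submodule.torsionBy ℤ (W'⁄K).Point p) →ₗ[ZMod p]
      (Submodule.torsionBy ℤ (W'⁄K).Point p)) where
  toFun σ := (DistribSMul.toAddMonoidHom
    (Submodule.torsionBy ℤ (W'⁄K).Point p) σ).toZModLinearMap p
  map_one' := by
    ext P : 1
    exact one_smul (K ≃ₐ[S] K) P
  map_mul' σ τ := by
    ext P : 1
    exact mul_smul σ τ P

theorem galRep_apply (p : ℕ) (σ : K ≃ₐ[S] K)
    (P : Submodule.torsionBy ℤ (W'⁄K).Point p) :
    galRep (S := S) (W' := W') p σ P = σ • P := rfl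

/-- **(EC-a), literal form.**  If the mod `p` representation is irreducible in the sense of the
prelude and `E[p]` is 2-dimensional, some `σ` has no nonzero fixed point in `E[p]`. -/
theorem exists_no_fixed_point {p : ℕ} [Fact p.Prime]
    (hirr : GaloisRepIsIrreducible (K := K) S W' p)
    (h2 : finrank (ZMod p) (Submodule.torsionBy ℤ (W'⁄K).Point p) = 2) :
    ∃ σ : K ≃ₐ[S] K, ∀ P : Submodule.torsionBy ℤ (W'⁄K).Point p, σ • P = P → P = 0 := by
  by_contra hcon
  push Not at hcon
  have hfix : ∀ σ : K ≃ₐ[S] K, ∃ P : Submodule.torsionBy ℤ (W'⁄K).Point p,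
      P ≠ 0 ∧ galRep (S := S) (W' := W') p σ P = P := by
    intro σ
    obtain ⟨P, hP, hP0⟩ := hcon σ
    exact ⟨P, hP0, hP⟩
  obtain ⟨L, hbot, htop, hstab⟩ := exists_stable_line h2 (galRep (S := S) (W' := W') p) hfix
  rcases hirr.2 L (fun σ x hx => hstab σ x hx) with h | h
  · exact hbot h
  · exact htop h

end Galois

end Fermat.Agent.ES.EC.FixedVec20
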