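/-
Chapter (EC) of the S41 blueprint, final assembly (helper8).

`hirr : GaloisRepIsIrreducible ℚ E p`, `p` odd, `W` an integral model of `E`, `T` a finite set of
primes.  Then there is a good prime `ℓ ∉ T`, `ℓ ≠ p`, with `p ∤ #W̃(𝔽_ℓ) = ℓ + 1 - a_ℓ(W)`.

Inputs: the exact count `E[p] ≅ (ℤ/p)²` (`CardEq29`), the linear algebra `FixedVec20`
(irreducible ⇒ some `σ₀` has no nonzero fixed point in `E[p]`), Chebotarev over `ℚ̄`
(`ChebQbar23.exists_frobenius_pow_eq_on`), the Galois-equivariant transport between `E` and the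
integral model (`S05.TransportQ.pointEquivBC`), and the local statement `LocalFix` (a Frobenius
element at a good prime `ℓ ≠ p` with `p ∣ #W̃(𝔽_ℓ)` fixes a nonzero `p`-torsion point), which is
taken here as a hypothesis.
-/
import Mathlib
import Fermat.Prelude.Def_FLTPrelim_Modularity
import Fermat.Prelude.Def_FLTPrelim_GaloisRep
import Fermat.Prelude.Def_EllipticCurve_FrobeniusTrace
import Fermat.Agent.ES.EC.FixedVec20
import Fermat.Agent.DivPoly.CardEq29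
import Fermat.Agent.DivPoly.A1Final
import Fermat.Agent.ES.GAL.ChebQbar23
import Fermat.Agent.S05.TransportQ

set_option autoImplicit false

open WeierstrassCurve WeierstrassCurve.Affine WeierstrassCurve.Affine.Point
open Fermat.Agent.Lib.FrobeniusExists

namespace Fermat.Agent.ES.EC.ECMain8

/-- The local input of chapter (EC): at a good prime `ℓ ≠ p` with `p ∣ #W̃(𝔽_ℓ)`, every Frobenius
element at a place over `ℓ` fixes (coordinatewise) a nonzero `p`-torsion point of the generic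
fibre of `W`. -/
def LocalFix (W : WeierstrassCurve ℤ) (p : ℕ) : Prop :=
  ∀ ℓ : ℕ, ℓ.Prime → ℓ ≠ p → W.IsGoodPrimeFor ℓ →
    p ∣ Nat.card (W.reductionMod ℓ).toAffine.Point →
    ∀ (A : ValuationSubring Qbar) (φ : GQ), A.LiesOverPrime ℓ → A.IsFrobeniusAt φ ℓ →
      ∃ (x y : Qbar) (h : ((W.map (Int.castRingHom ℚ))⁄Qbar).Nonsingular x y),
        p • Point.some x y h = 0 ∧ φ x = x ∧ φ y = y

section Coord

variable {F : Type*} [Field F] {V : Affine F}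

/-- `x`-coordinate of a point (`0` at infinity). -/
def xc : V.Point → F
  | .zero => 0
  | .some x _ _ => x

/-- `y`-coordinate of a point (`0` at infinity). -/
def yc : V.Point → F
  | .zero => 0
  | .some _ y _ => y

@[simp] lemma xc_some {x y : F} (h : V.Nonsingular x y) : xc (Point.some x y h) = x := rfl
@[simp] lemma yc_some {x y : F} (h : V.Nonsingular x y) : yc (Point.some x y h) = y := rfl

end Coord

/-- The trace of Frobenius of the model in terms of the point count. -/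
theorem succ_sub_apOfModel (W : WeierstrassCurve ℤ) (ℓ : ℕ) :
    (ℓ : ℤ) + 1 - W.apOfModel ℓ = (Nat.card (W.reductionMod ℓ).toAffine.Point : ℤ) := by
  unfold WeierstrassCurve.apOfModel WeierstrassCurve.traceOfFrobenius WeierstrassCurve.card
  rw [Nat.card_zmod]
  ring

theorem pow_fix {φ : GQ} {x : Qbar} (h : φ x = x) (j : ℕ) : (φ ^ j) x = x := by
  induction j with
  | zero => simp
  | succ j ih => rw [pow_succ, AlgEquiv.mul_apply, h, ih]

/-- **Chapter (EC), modulo the local statement.** -/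
theorem exists_good_prime_not_dvd_card (E : WeierstrassCurve ℚ) [E.IsElliptic]
    {W : WeierstrassCurve ℤ} (hW : W.IsIntegralModelOf E) {p : ℕ} (hp : p.Prime) (hp2 : p ≠ 2)
    (hirr : GaloisRepIsIrreducible (K := Qbar) ℚ E p) (hLF : LocalFix W p) (T : Finset ℕ) :
    ∃ ℓ : ℕ, ℓ.Prime ∧ ℓ ∉ T ∧ W.IsGoodPrimeFor ℓ ∧ ℓ ≠ p ∧
      ¬ (p : ℤ) ∣ ((ℓ : ℤ) + 1 - W.apOfModel ℓ) := by
  classical
  have : Fact p.Prime := ⟨hp⟩
  obtain ⟨C, hC⟩ := hW
  set WQ : WeierstrassCurve ℚ := W.map (Int.castRingHom ℚ) with hWQ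
  have hEq : WQ = C • E := hC.symm
  -- the transport between the model and the curve
  let e : (WQ⁄Qbar).Point ≃+ (E⁄Qbar).Point := Fermat.Agent.S05.TransportQ.pointEquivBC Qbar hEq
  have he : ∀ (σ : GQ) (P : (WQ⁄Qbar).Point), e (σ • P) = σ • e P := fun σ P =>
    Fermat.Agent.S05.TransportQ.pointEquivBC_map (S := ℚ) hEq σ.toAlgHom P
  -- discriminants
  have hΔE : (E⁄Qbar).Δ ≠ 0 := (E.map (algebraMap ℚ Qbar)).isUnit_Δ.ne_zero
  have hWQell : WQ.IsElliptic := by rw [hEq]; infer_instance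
  have hΔW : W.Δ ≠ 0 := by
    intro h0
    have h1 : WQ.Δ = 0 := by rw [hWQ, WeierstrassCurve.map_Δ, h0, _root_.map_zero]
    exact WQ.isUnit_Δ.ne_zero h1
  -- `E[p]` has dimension two, so some `σ₀` has no nonzero fixed point
  have h2 : Module.finrank (ZMod p) (Submodule.torsionBy ℤ (E⁄Qbar).Point p) = 2 :=
    Fermat.Agent.DivPoly.CardEq29.finrank_torsionBy_eq_two hΔE hp2
  obtain ⟨σ₀, hσ₀⟩ := Fermat.Agent.ES.EC.FixedVec20.exists_no_fixed_point hirr h2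
  -- the field generated by the coordinates of the `p`-torsion of the model
  have hodd : Odd p := hp.odd_of_ne_two hp2
  have hpF : ((p : ℕ) : Qbar) ≠ 0 := Nat.cast_ne_zero.mpr hp.ne_zero
  have hfin : {P : (WQ⁄Qbar).Point | p • P = 0}.Finite :=
    (Fermat.Agent.DivPoly.A1Final.torsion_finite_ncard_le (W := (WQ⁄Qbar)) hodd hpF).1
  set X : Set Qbar := xc '' {P : (WQ⁄Qbar).Point | p • P = 0} ∪
    yc '' {P : (WQ⁄Qbar).Point | p • P = 0} with hX
  have hXfin : X.Finite := (hfin.image _).union (hfin.image _)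
  have : Finite X := hXfin.to_subtype
  have hLfd : FiniteDimensional ℚ (IntermediateField.adjoin ℚ X) :=
    IntermediateField.finiteDimensional_adjoin
      (fun x _ => (isIntegral_Qbar).isIntegral x)
  -- Chebotarev
  set T' : Finset ℕ := T ∪ {p} ∪ W.Δ.natAbs.primeFactors with hT'
  obtain ⟨ℓ, A, φ, j, hℓ, hℓT, hAℓ, hφ, hj⟩ :=
    Fermat.Agent.ES.GAL.ChebQbar23.exists_frobenius_pow_eq_on (IntermediateField.adjoin ℚ X) σ₀ T'
  have hℓT1 : ℓ ∉ T := fun h => hℓT (by simp [hT', h])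
  have hℓp : ℓ ≠ p := fun h => hℓT (by simp [hT', h])
  have hgood : W.IsGoodPrimeFor ℓ := by
    intro hdvd
    apply hℓT
    have : ℓ ∈ W.Δ.natAbs.primeFactors := by
      rw [Nat.mem_primeFactors]
      refine ⟨hℓ, Int.natCast_dvd.mp hdvd, ?_⟩
      exact Int.natAbs_ne_zero.mpr hΔW
    simp [hT', this]
  refine ⟨ℓ, hℓ, hℓT1, hgood, hℓp, ?_⟩
  intro hdvd
  rw [succ_sub_apOfModel, Int.natCast_dvd_natCast] at hdvd
  obtain ⟨x, y, h, hP, hx, hy⟩ := hLF ℓ hℓ hℓp hgood hdvd A φ hAℓ hφ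
  -- the coordinates lie in `L`
  have hmem : Point.some x y h ∈ {P : (WQ⁄Qbar).Point | p • P = 0} := hP
  have hxL : x ∈ IntermediateField.adjoin ℚ X :=
    IntermediateField.subset_adjoin ℚ X (Or.inl ⟨_, hmem, rfl⟩)
  have hyL : y ∈ IntermediateField.adjoin ℚ X :=
    IntermediateField.subset_adjoin ℚ X (Or.inr ⟨_, hmem, rfl⟩)
  have hσx : σ₀ x = x := by rw [← hj x hxL, pow_fix hx]
  have hσy : σ₀ y = y := by rw [← hj y hyL, pow_fix hy]
  have hσP : σ₀ • (Point.some x y h : (WQ⁄Qbar).Point) = Point.some x y h := by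
    rw [algEquiv_smul_def, Point.map_some]
    simp only [Point.some.injEq]
    exact ⟨hσx, hσy⟩
  -- transport to `E`
  set Q : (E⁄Qbar).Point := e (Point.some x y h) with hQ
  have hQp : p • Q = 0 := by rw [hQ, ← map_nsmul, hP, _root_.map_zero]
  have hQσ : σ₀ • Q = Q := by rw [hQ, ← he, hσP]
  have hQ0 : Q ≠ 0 := by
    rw [hQ]
    intro h0
    exact Point.some_ne_zero h (e.injective (h0.trans (_root_.map_zero e).symm))
  have hQmem : Q ∈ Submodule.torsionBy ℤ (E⁄Qbar).Point p := by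
    rw [Submodule.mem_torsionBy_iff, natCast_zsmul]
    exact hQp
  have := hσ₀ ⟨Q, hQmem⟩ (Subtype.ext hQσ)
  exact hQ0 (congrArg Subtype.val this)

/-- An integer in a maximal ideal of `ℤ̄` containing `p` is divisible by `p`. -/
theorem dvd_of_intCast_mem {p : ℕ} (hp : p.Prime) {𝔪 : Ideal (integralClosure ℤ ℂ)}
    (hmax : 𝔪.IsMaximal) (hpm : (p : integralClosure ℤ ℂ) ∈ 𝔪) {n : ℤ}
    (hn : (n : integralClosure ℤ ℂ) ∈ 𝔪) : (p : ℤ) ∣ n := by
  by_contra hnd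
  have hcop : IsCoprime (p : ℤ) n :=
    (Int.isCoprime_iff_gcd_eq_one).mpr
      ((Nat.Prime.coprime_iff_not_dvd hp).mpr (fun h => hnd (Int.natCast_dvd.mpr h)))
  obtain ⟨u, v, huv⟩ := hcop
  apply hmax.ne_top
  rw [Ideal.eq_top_iff_one]
  have h1 : ((u * (p : ℤ) + v * n : ℤ) : integralClosure ℤ ℂ) = 1 := by rw [huv]; simp
  rw [← h1]
  push_cast
  exact 𝔪.add_mem (𝔪.mul_mem_left _ hpm) (𝔪.mul_mem_left _ hn)

/-- **Chapter (EC), ideal form: the system of eigenvalues of `E` is not Eisenstein mod `𝔪`.** -/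
theorem exists_good_prime_not_eisenstein (E : WeierstrassCurve ℚ) [E.IsElliptic]
    {W : WeierstrassCurve ℤ} (hW : W.IsIntegralModelOf E) {p : ℕ} (hp : p.Prime) (hp2 : p ≠ 2)
    (hirr : GaloisRepIsIrreducible (K := Qbar) ℚ E p) (hLF : LocalFix W p)
    {𝔪 : Ideal (integralClosure ℤ ℂ)} (hmax : 𝔪.IsMaximal)
    (hpm : (p : integralClosure ℤ ℂ) ∈ 𝔪) (T : Finset ℕ) :
    ∃ ℓ : ℕ, ℓ.Prime ∧ ℓ ∉ T ∧ W.IsGoodPrimeFor ℓ ∧ ℓ ≠ p ∧
      ((W.apOfModel ℓ : ℤ) : integralClosure ℤ ℂ) - ((ℓ : integralClosure ℤ ℂ) + 1) ∉ 𝔪 := by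
  obtain ⟨ℓ, hℓ, hℓT, hgood, hℓp, hnd⟩ :=
    exists_good_prime_not_dvd_card E hW hp hp2 hirr hLF T
  refine ⟨ℓ, hℓ, hℓT, hgood, hℓp, fun hmem => hnd ?_⟩
  apply dvd_of_intCast_mem hp hmax hpm
  have : (((ℓ : ℤ) + 1 - W.apOfModel ℓ : ℤ) : integralClosure ℤ ℂ) =
      -(((W.apOfModel ℓ : ℤ) : integralClosure ℤ ℂ) - ((ℓ : integralClosure ℤ ℂ) + 1)) := by
    push_cast
    ring
  rw [this]
  exact 𝔪.neg_mem hmem

/-- The same against an eigenform satisfying the congruences of S41: some good `ℓ ∉ T`, `ℓ ≠ p`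
has `a_ℓ(f) ≢ ℓ + 1 mod 𝔪`. -/
theorem exists_coeff_not_eisenstein (E : WeierstrassCurve ℚ) [E.IsElliptic]
    {W : WeierstrassCurve ℤ} (hW : W.IsIntegralModelOf E) {p : ℕ} (hp : p.Prime) (hp2 : p ≠ 2)
    (hirr : GaloisRepIsIrreducible (K := Qbar) ℚ E p) (hLF : LocalFix W p)
    {𝔪 : Ideal (integralClosure ℤ ℂ)} (hmax : 𝔪.IsMaximal)
    (hpm : (p : integralClosure ℤ ℂ) ∈ 𝔪) (c : ℕ → ℂ) (T : Finset ℕ)
    (hcong : ∀ ℓ : ℕ, ℓ.Prime → W.IsGoodPrimeFor ℓ → ℓ ∉ T → ℓ ≠ p →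
      ∃ a : integralClosure ℤ ℂ, (a : ℂ) = c ℓ ∧
        a - ((W.apOfModel ℓ : ℤ) : integralClosure ℤ ℂ) ∈ 𝔪) :
    ∃ ℓ : ℕ, ℓ.Prime ∧ ℓ ∉ T ∧ W.IsGoodPrimeFor ℓ ∧ ℓ ≠ p ∧
      ∀ a : integralClosure ℤ ℂ, (a : ℂ) = c ℓ →
        a - ((ℓ : integralClosure ℤ ℂ) + 1) ∉ 𝔪 := by
  obtain ⟨ℓ, hℓ, hℓT, hgood, hℓp, hne⟩ :=
    exists_good_prime_not_eisenstein E hW hp hp2 hirr hLF hmax hpm T
  refine ⟨ℓ, hℓ, hℓT, hgood, hℓp, fun a ha hmem => hne ?_⟩
  obtain ⟨a', ha', hcg⟩ := hcong ℓ hℓ hgood hℓT hℓp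
  have haa : a = a' := Subtype.ext (ha.trans ha'.symm)
  subst haa
  have : ((W.apOfModel ℓ : ℤ) : integralClosure ℤ ℂ) - ((ℓ : integralClosure ℤ ℂ) + 1) =
      (a - ((ℓ : integralClosure ℤ ℂ) + 1)) - (a - ((W.apOfModel ℓ : ℤ) : integralClosure ℤ ℂ)) := by
    ring
  rw [this]
  exact 𝔪.sub_mem hmem hcg

end Fermat.Agent.ES.EC.ECMain8
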