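/-
Chapter (EC) of S41, local glue (helper8).

`TorsionLift W p` : at a good prime `ℓ ≠ p` with `p ∣ #W̃(𝔽_ℓ)` and a place `A` of `ℚ̄` over `ℓ`
there is a nonzero `p`-torsion point `(x, y)` of the generic fibre whose coordinates are congruent
to rational integers modulo the maximal ideal of `A`, and whose reduction is not a 2-torsion point.

We show `TorsionLift W p → LocalFix W p`: a Frobenius element `φ` at `A` moves `(x, y)` to a
congruent `p`-torsion point, hence fixes it (`CongE1_20`: the kernel of reduction has no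
`p`-torsion).
-/
import Mathlib
import Fermat.Agent.ES.EC.ECMain8
import Fermat.Agent.ES.EC.CongE1_20

set_option autoImplicit false

open WeierstrassCurve WeierstrassCurve.Affine WeierstrassCurve.Affine.Point
open Fermat.Agent.Lib.FrobeniusExists

namespace Fermat.Agent.ES.EC.LocalFix8

open Fermat.Agent.ES.EC.ECMain8

/-- The lifting statement (EC-c). -/
def TorsionLift (W : WeierstrassCurve ℤ) (p : ℕ) : Prop :=
  ∀ ℓ : ℕ, ℓ.Prime → ℓ ≠ p → W.IsGoodPrimeFor ℓ →
    p ∣ Nat.card (W.reductionMod ℓ).toAffine.Point →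
    ∀ (A : ValuationSubring Qbar), A.LiesOverPrime ℓ →
      ∃ (x y : Qbar) (h : ((W.map (Int.castRingHom ℚ))⁄Qbar).Nonsingular x y) (nx ny : ℤ),
        p • Point.some x y h = 0 ∧ x - (nx : Qbar) ∈ A.nonunits ∧ y - (ny : Qbar) ∈ A.nonunits ∧
          A.valuation (2 * y + ((W.map (Int.castRingHom ℚ))⁄Qbar).a₁ * x +
            ((W.map (Int.castRingHom ℚ))⁄Qbar).a₃) = 1

section Nonunits

variable {A : ValuationSubring Qbar}

theorem nonunits_add {a b : Qbar} (ha : a ∈ A.nonunits) (hb : b ∈ A.nonunits) :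
    a + b ∈ A.nonunits := by
  rw [ValuationSubring.mem_nonunits_iff] at *
  exact lt_of_le_of_lt (A.valuation.map_add a b) (max_lt ha hb)

theorem nonunits_neg {a : Qbar} (ha : a ∈ A.nonunits) : -a ∈ A.nonunits := by
  rw [ValuationSubring.mem_nonunits_iff] at *
  rwa [Valuation.map_neg]

theorem nonunits_sub {a b : Qbar} (ha : a ∈ A.nonunits) (hb : b ∈ A.nonunits) :
    a - b ∈ A.nonunits := by
  rw [sub_eq_add_neg]
  exact nonunits_add ha (nonunits_neg hb)

theorem mul_nonunits {a b : Qbar} (ha : a ∈ A) (hb : b ∈ A.nonunits) : a * b ∈ A.nonunits := by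
  rw [ValuationSubring.mem_nonunits_iff] at *
  rw [map_mul]
  have h1 : A.valuation a ≤ 1 := (A.valuation_le_one_iff a).mpr ha
  calc A.valuation a * A.valuation b ≤ 1 * A.valuation b := mul_le_mul_left h1 _
    _ = A.valuation b := one_mul _
    _ < 1 := hb

theorem mem_of_nonunits {a : Qbar} (ha : a ∈ A.nonunits) : a ∈ A := by
  rw [ValuationSubring.mem_nonunits_iff] at ha
  exact (A.valuation_le_one_iff a).mp ha.le

/-- `a ≡ n mod 𝔪_A` with `n` a rational integer and `ℓ ∈ 𝔪_A` ⇒ `a ^ ℓ ≡ a`. -/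
theorem pow_sub_self_mem {ℓ : ℕ} (hℓ : ℓ.Prime) (hA : A.LiesOverPrime ℓ) {a : Qbar} {n : ℤ}
    (ha : a - (n : Qbar) ∈ A.nonunits) : a ^ ℓ - a ∈ A.nonunits := by
  have hnA : (n : Qbar) ∈ A := intCast_mem A n
  have haA : a ∈ A := by
    have := add_mem (mem_of_nonunits ha) hnA
    rwa [sub_add_cancel] at this
  -- a^ℓ - n^ℓ
  have h1 : a ^ ℓ - (n : Qbar) ^ ℓ ∈ A.nonunits := by
    rw [← Commute.geom_sum₂_mul (Commute.all a (n : Qbar)) ℓ]
    refine mul_nonunits ?_ ha
    exact sum_mem fun i _ => mul_mem (pow_mem haA i) (pow_mem hnA _)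
  -- n^ℓ - n
  have h2 : (n : Qbar) ^ ℓ - (n : Qbar) ∈ A.nonunits := by
    have hdvd : (ℓ : ℤ) ∣ n ^ ℓ - n := by
      have : Fact ℓ.Prime := ⟨hℓ⟩
      rw [← ZMod.intCast_zmod_eq_zero_iff_dvd]
      push_cast
      rw [ZMod.pow_card, sub_self]
    obtain ⟨k, hk⟩ := hdvd
    have : (n : Qbar) ^ ℓ - (n : Qbar) = (k : Qbar) * (ℓ : Qbar) := by
      have := congrArg (fun z : ℤ => (z : Qbar)) hk
      simp only [Int.cast_sub, Int.cast_pow, Int.cast_mul, Int.cast_natCast] at this
      rw [this, mul_comm]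
    rw [this]
    exact mul_nonunits (intCast_mem A k) hA
  have h3 : a ^ ℓ - a = (a ^ ℓ - (n : Qbar) ^ ℓ) + ((n : Qbar) ^ ℓ - (n : Qbar)) -
      (a - (n : Qbar)) := by ring
  rw [h3]
  exact nonunits_sub (nonunits_add h1 h2) ha

/-- A prime `p ≠ ℓ` is a unit at a place over `ℓ`. -/
theorem valuation_prime_eq_one {ℓ p : ℕ} (hℓ : ℓ.Prime) (hp : p.Prime) (hℓp : ℓ ≠ p)
    (hA : A.LiesOverPrime ℓ) : A.valuation ((p : ℕ) : Qbar) = 1 := by
  have hle : A.valuation ((p : ℕ) : Qbar) ≤ 1 := by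
    have := valuation_intCast_le_one A (p : ℤ)
    rwa [Int.cast_natCast] at this
  rcases lt_or_eq_of_le hle with hlt | heq
  · exfalso
    have hpm : ((p : ℕ) : Qbar) ∈ A.nonunits := (ValuationSubring.mem_nonunits_iff (A := A)).mpr hlt
    have hcop : IsCoprime (p : ℤ) (ℓ : ℤ) :=
      Nat.isCoprime_iff_coprime.mpr ((Nat.coprime_primes hp hℓ).mpr (Ne.symm hℓp))
    obtain ⟨u, w, huw⟩ := hcop
    have h1 : (1 : Qbar) ∈ A.nonunits := by
      have e : (1 : Qbar) = (u : Qbar) * ((p : ℕ) : Qbar) + (w : Qbar) * ((ℓ : ℕ) : Qbar) := by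
        have := congrArg (fun z : ℤ => (z : Qbar)) huw
        simp only [Int.cast_add, Int.cast_mul, Int.cast_natCast, Int.cast_one] at this
        exact this.symm
      rw [e]
      exact nonunits_add (mul_nonunits (intCast_mem A u) hpm) (mul_nonunits (intCast_mem A w) hA)
    rw [ValuationSubring.mem_nonunits_iff, map_one] at h1
    exact lt_irrefl _ h1
  · exact heq

end Nonunits

/-- The generic fibre of an integral Weierstrass curve has integral coefficients at every place
of `ℚ̄`. -/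
theorem integralCoeffs (W : WeierstrassCurve ℤ) (A : ValuationSubring Qbar) :
    Fermat.Agent.S05.Kernel.IntegralCoeffs A.valuation ((W.map (Int.castRingHom ℚ))⁄Qbar) := by
  have key : ∀ n : ℤ, A.valuation (algebraMap ℚ Qbar ((Int.castRingHom ℚ) n)) ≤ 1 := by
    intro n
    have : algebraMap ℚ Qbar ((Int.castRingHom ℚ) n) = (n : Qbar) := by simp
    rw [this]
    exact valuation_intCast_le_one A n
  exact ⟨key _, key _, key _, key _, key _⟩

/-- **(EC-c) ⇒ the local statement of chapter (EC).** -/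
theorem localFix_of_torsionLift {W : WeierstrassCurve ℤ} {p : ℕ} (hp : p.Prime)
    (hTL : TorsionLift W p) : LocalFix W p := by
  intro ℓ hℓ hℓp hgood hdvd A φ hAℓ hφ
  obtain ⟨x, y, h, nx, ny, hP, hx, hy, hu⟩ := hTL ℓ hℓ hℓp hgood hdvd A hAℓ
  refine ⟨x, y, h, hP, ?_⟩
  have hxA : x ∈ A := by
    have := add_mem (mem_of_nonunits hx) (intCast_mem A nx)
    rwa [sub_add_cancel] at this
  have hyA : y ∈ A := by
    have := add_mem (mem_of_nonunits hy) (intCast_mem A ny)
    rwa [sub_add_cancel] at this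
  -- `φ` moves the coordinates inside their residue classes
  have hφx : φ x - x ∈ A.nonunits := by
    have h1 := Fermat.Agent.ES.GAL.ChebQbar23.sub_pow_mem_nonunits hφ hxA
    have h2 := pow_sub_self_mem hℓ hAℓ hx
    have : φ x - x = (φ x - x ^ ℓ) + (x ^ ℓ - x) := by ring
    rw [this]
    exact nonunits_add h1 h2
  have hφy : φ y - y ∈ A.nonunits := by
    have h1 := Fermat.Agent.ES.GAL.ChebQbar23.sub_pow_mem_nonunits hφ hyA
    have h2 := pow_sub_self_mem hℓ hAℓ hy
    have : φ y - y = (φ y - y ^ ℓ) + (y ^ ℓ - y) := by ring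
    rw [this]
    exact nonunits_add h1 h2
  -- the conjugate point
  have hmap : φ • (Point.some x y h : ((W.map (Int.castRingHom ℚ))⁄Qbar).Point) =
      Point.some (φ x) (φ y)
        ((WeierstrassCurve.Affine.baseChange_nonsingular _ φ.toAlgHom.injective x y).mpr h) := by
    rw [algEquiv_smul_def, Point.map_some]
    rfl
  have hP' : p • Point.some (φ x) (φ y)
      ((WeierstrassCurve.Affine.baseChange_nonsingular _ φ.toAlgHom.injective x y).mpr h) = 0 := by
    rw [← hmap, algEquiv_smul_def, ← map_nsmul, hP, _root_.map_zero]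
  have heq := Fermat.Agent.ES.EC.CongE1_20.eq_of_congruent_of_nsmul_eq_zero
    (integralCoeffs W A) _ h
    ((ValuationSubring.mem_nonunits_iff (A := A)).mp hφx) ((ValuationSubring.mem_nonunits_iff (A := A)).mp hφy) hu
    (valuation_prime_eq_one hℓ hp hℓp hAℓ) hP' hP
  exact Point.some.inj heq

end Fermat.Agent.ES.EC.LocalFix8
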