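/-
Chapter (EC) of S41, brick (EC-c) (helper20): lifting a point of order `p` of the reduction
`W̃(𝔽_ℓ)` to a `p`-torsion point over `ℚ̄` with integral, congruent coordinates.
-/
import Mathlib
import Fermat.Prelude.Def_FLTPrelim_Modularity
import Fermat.Prelude.Def_FLTPrelim_Ramification
import Fermat.Prelude.Def_FLTPrelim_GaloisRep
import Fermat.Agent.DivPoly.A1Final

set_option autoImplicit false

open WeierstrassCurve WeierstrassCurve.Affine Polynomial

namespace Fermat.Agent.ES.EC.TorsionLift20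

section RootLift

variable {K : Type*} [Field K] {Γ₀ : Type*} [LinearOrderedCommGroupWithZero Γ₀]
  (v : Valuation K Γ₀)

/-- A product of elements of valuation `≥ 1` has valuation `≥ 1`. -/
theorem one_le_prod_of_one_le (s : Multiset K) (h : ∀ x ∈ s, 1 ≤ v x) : 1 ≤ v s.prod := by
  induction s using Multiset.induction_on with
  | empty => simp
  | cons a s ih =>
    rw [Multiset.prod_cons, map_mul]
    have h1 : 1 ≤ v a := h a (Multiset.mem_cons_self a s)
    have h2 : 1 ≤ v s.prod := ih fun x hx => h x (Multiset.mem_cons_of_mem hx)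
    calc (1 : Γ₀) = 1 * 1 := (mul_one 1).symm
      _ ≤ v a * v s.prod := mul_le_mul' h1 h2

/-- **Root lifting without residue fields.**  If `f` splits, has a leading coefficient of
valuation one and `v (f n) < 1`, then some root `r` of `f` has `v (n - r) < 1`. -/
theorem exists_root_near {f : K[X]} (hs : f.Splits) (hlead : v f.leadingCoeff = 1) (n : K)
    (hn : v (f.eval n) < 1) : ∃ r : K, f.eval r = 0 ∧ v (n - r) < 1 := by
  by_contra hcon
  push Not at hcon
  have hf0 : f ≠ 0 := by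
    rintro rfl
    simp at hlead
  have h1 : 1 ≤ v (f.roots.map (n - ·)).prod := by
    apply one_le_prod_of_one_le
    intro x hx
    obtain ⟨r, hr, rfl⟩ := Multiset.mem_map.mp hx
    exact hcon r ((mem_roots hf0).mp hr)
  rw [hs.eval_eq_prod_roots, map_mul, hlead, one_mul] at hn
  exact absurd hn (not_lt.mpr h1)

end RootLift

section IntVal

variable {K : Type*} [Field K] {Γ₀ : Type*} [LinearOrderedCommGroupWithZero Γ₀]
  (v : Valuation K Γ₀)

theorem v_intCast_le_one (n : ℤ) : v (n : K) ≤ 1 := by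
  induction n using Int.induction_on with
  | zero => simp
  | succ i ih =>
    rw [Int.cast_add, Int.cast_one]
    exact v.map_add_le ih (by rw [map_one])
  | pred i ih =>
    rw [Int.cast_sub, Int.cast_one]
    exact v.map_sub_le ih (by rw [map_one])

/-- Integers divisible by `ℓ` have valuation `< 1`. -/
theorem v_intCast_lt_one_of_dvd {ℓ : ℕ} (hvℓ : v (ℓ : K) < 1) {n : ℤ} (h : (ℓ : ℤ) ∣ n) :
    v (n : K) < 1 := by
  obtain ⟨m, rfl⟩ := h
  rw [Int.cast_mul, Int.cast_natCast, map_mul]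
  calc v (ℓ : K) * v (m : K) ≤ v (ℓ : K) * 1 := mul_le_mul_right (v_intCast_le_one v m) _
    _ = v (ℓ : K) := mul_one _
    _ < 1 := hvℓ

/-- Integers prime to `ℓ` have valuation `1`. -/
theorem v_intCast_eq_one_of_not_dvd {ℓ : ℕ} (hℓ : ℓ.Prime) (hvℓ : v (ℓ : K) < 1) {n : ℤ}
    (h : ¬ (ℓ : ℤ) ∣ n) : v (n : K) = 1 := by
  apply le_antisymm (v_intCast_le_one v n)
  by_contra hlt
  push Not at hlt
  have hcop : IsCoprime (ℓ : ℤ) n := by
    rw [Int.isCoprime_iff_gcd_eq_one]
    have hp : Prime (ℓ : ℤ) := Nat.prime_iff_prime_int.mp hℓ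
    exact Int.isCoprime_iff_gcd_eq_one.mp ((Prime.coprime_iff_not_dvd hp).mpr h)
  obtain ⟨a, b, hab⟩ := hcop
  have h1 : v ((a * ℓ + b * n : ℤ) : K) < 1 := by
    rw [Int.cast_add, Int.cast_mul, Int.cast_mul, Int.cast_natCast]
    apply v.map_add_lt
    · rw [map_mul]
      calc v (a : K) * v (ℓ : K) ≤ 1 * v (ℓ : K) := mul_le_mul_left (v_intCast_le_one v a) _
        _ = v (ℓ : K) := one_mul _
        _ < 1 := hvℓ
    · rw [map_mul]
      calc v (b : K) * v (n : K) ≤ 1 * v (n : K) := mul_le_mul_left (v_intCast_le_one v b) _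
        _ = v (n : K) := one_mul _
        _ < 1 := hlt
  rw [hab, Int.cast_one, map_one] at h1
  exact lt_irrefl _ h1

end IntVal

section FinitePoints

/-- The points of a Weierstrass curve over a finite field form a finite set. -/
theorem finite_point {F : Type*} [Field F] [Finite F] (W : Affine F) : Finite W.Point := by
  classical
  let f : W.Point → Option (F × F) := fun P =>
    match P with
    | .zero => none
    | .some x y _ => some (x, y)
  apply Finite.of_injective f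
  rintro (_ | ⟨x, y, h⟩) (_ | ⟨x', y', h'⟩) hPQ
  · rfl
  · simp [f] at hPQ
  · simp [f] at hPQ
  · simp only [f, Option.some.injEq, Prod.mk.injEq] at hPQ
    obtain ⟨rfl, rfl⟩ := hPQ
    rfl

end FinitePoints

section Lift

open Fermat.Agent.DivPoly

variable {K : Type*} [Field K] [DecidableEq K] [IsAlgClosed K] {Γ₀ : Type*}
  [LinearOrderedCommGroupWithZero Γ₀] (v : Valuation K Γ₀)

/-- **(EC-c), general valued field form.** -/
theorem exists_torsion_lift (W : WeierstrassCurve ℤ) {ℓ p : ℕ} [hℓ : Fact ℓ.Prime]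
    (hp : p.Prime) (hp2 : p ≠ 2) (hℓp : ℓ ≠ p) (hvℓ : v (ℓ : K) < 1)
    (hΔ : ¬ (ℓ : ℤ) ∣ W.Δ)
    (hcard : p ∣ Nat.card (W.reductionMod ℓ).toAffine.Point) :
    ∃ (x y : K) (h : (W.map (Int.castRingHom K)).toAffine.Nonsingular x y) (nx ny : ℤ),
      p • Point.some x y h = 0 ∧ v (x - (nx : K)) < 1 ∧ v (y - (ny : K)) < 1 ∧
      v (2 * y + ((W.a₁ : ℤ) : K) * x + ((W.a₃ : ℤ) : K)) = 1 := by
  classical
  have hpodd : Odd p := hp.odd_of_ne_two hp2
  have hvint : ∀ n : ℤ, v (n : K) ≤ 1 := v_intCast_le_one v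
  have hvp : v (p : K) = 1 := by
    have : ¬ (ℓ : ℤ) ∣ (p : ℤ) := by
      rw [Int.natCast_dvd_natCast]
      intro hd
      exact hℓp ((Nat.prime_dvd_prime_iff_eq hℓ.out hp).mp hd)
    have := v_intCast_eq_one_of_not_dvd v hℓ.out hvℓ this
    rwa [Int.cast_natCast] at this
  have hpK : (p : K) ≠ 0 := by
    intro h0; rw [h0, map_zero] at hvp; exact zero_ne_one hvp
  -- the reduced curve and a point of order `p`
  set Wt : Affine (ZMod ℓ) := (W.reductionMod ℓ).toAffine with hWt
  have hfin : Finite Wt.Point := finite_point Wt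
  have : Fact p.Prime := ⟨hp⟩
  obtain ⟨Pt, hPt⟩ := exists_prime_addOrderOf_dvd_card' (G := Wt.Point) p hcard
  have hPt0 : Pt ≠ 0 := by
    intro h0; rw [h0, addOrderOf_zero] at hPt; exact hp.one_lt.ne hPt
  have hpPt : p • Pt = 0 := by rw [← hPt]; exact addOrderOf_nsmul_eq_zero Pt
  rcases Pt with _ | ⟨xt, yt, ht⟩
  · exact absurd rfl hPt0
  -- integer lifts
  obtain ⟨nx, rfl⟩ := ZMod.intCast_surjective xt
  obtain ⟨ny, rfl⟩ := ZMod.intCast_surjective yt
  -- the division polynomial vanishes mod ℓ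
  have hψt : (Wt.preΨ' p).eval (nx : ZMod ℓ) = 0 :=
    (A1Final.nsmul_eq_zero_iff_preΨ' ht hpodd).mp hpPt
  have hψdvd : (ℓ : ℤ) ∣ (W.preΨ' p).eval nx := by
    rw [← ZMod.intCast_zmod_eq_zero_iff_dvd]
    have : Wt.preΨ' p = (W.preΨ' p).map (Int.castRingHom (ZMod ℓ)) := by
      rw [hWt]; exact WeierstrassCurve.map_preΨ' W (Int.castRingHom (ZMod ℓ)) p
    rw [this, eval_intCast_map] at hψt
    simpa using hψt
  -- the equation mod ℓ
  have heqt := (Affine.equation_iff _ _).mp ht.1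
  have heqdvd : (ℓ : ℤ) ∣ ny ^ 2 + W.a₁ * nx * ny + W.a₃ * ny
      - (nx ^ 3 + W.a₂ * nx ^ 2 + W.a₄ * nx + W.a₆) := by
    rw [← ZMod.intCast_zmod_eq_zero_iff_dvd]
    simp only [hWt, WeierstrassCurve.reductionMod, WeierstrassCurve.map_a₁,
      WeierstrassCurve.map_a₂, WeierstrassCurve.map_a₃, WeierstrassCurve.map_a₄,
      WeierstrassCurve.map_a₆, eq_intCast] at heqt
    push_cast
    rw [heqt]; ring
  -- the reduction is not a 2-torsion point
  have hψ2 : ¬ (ℓ : ℤ) ∣ 2 * ny + W.a₁ * nx + W.a₃ := by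
    intro hd
    rw [← ZMod.intCast_zmod_eq_zero_iff_dvd] at hd
    push_cast at hd
    have hneg : (ny : ZMod ℓ) = Wt.negY nx ny := by
      simp only [Affine.negY, hWt, WeierstrassCurve.reductionMod, WeierstrassCurve.map_a₁,
        WeierstrassCurve.map_a₃, eq_intCast]
      linear_combination hd
    have h2 : (2 : ℕ) • (Point.some _ _ ht : Wt.Point) = 0 := by
      rw [two_nsmul]
      exact Point.add_of_Y_eq rfl hneg
    have := addOrderOf_dvd_of_nsmul_eq_zero h2
    rw [hPt] at this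
    exact hp2 ((Nat.prime_dvd_prime_iff_eq hp Nat.prime_two).mp this)
  -- the curve over `K`
  set WK : Affine K := (W.map (Int.castRingHom K)).toAffine with hWK
  have hΔK : WK.Δ ≠ 0 := by
    rw [hWK, WeierstrassCurve.map_Δ, eq_intCast]
    intro h0
    have := v_intCast_eq_one_of_not_dvd v hℓ.out hvℓ hΔ
    rw [h0, map_zero] at this
    exact zero_ne_one this
  -- lift the `x`-coordinate
  set f : K[X] := WK.preΨ' p with hf
  have hfmap : f = (W.preΨ' p).map (Int.castRingHom K) := by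
    rw [hf, hWK]; exact WeierstrassCurve.map_preΨ' W (Int.castRingHom K) p
  have hflead : v f.leadingCoeff = 1 := by
    rw [hf, WeierstrassCurve.leadingCoeff_preΨ' _ hpK,
      if_neg (Nat.not_even_iff_odd.mpr hpodd), hvp]
  have hfn : v (f.eval (nx : K)) < 1 := by
    rw [hfmap, eval_intCast_map, eq_intCast]
    exact v_intCast_lt_one_of_dvd v hvℓ hψdvd
  obtain ⟨r, hr0, hrn⟩ := exists_root_near v (IsAlgClosed.splits f) hflead (nx : K) hfn
  have hvr : v r ≤ 1 := by
    have : r = (nx : K) - ((nx : K) - r) := by ring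
    rw [this]
    exact v.map_sub_le (hvint nx) hrn.le
  -- lift the `y`-coordinate
  set c1 : K := ((W.a₁ : ℤ) : K) * r + ((W.a₃ : ℤ) : K) with hc1
  set c0 : K := r ^ 3 + ((W.a₂ : ℤ) : K) * r ^ 2 + ((W.a₄ : ℤ) : K) * r + ((W.a₆ : ℤ) : K)
    with hc0
  set g : K[X] := X ^ 2 + C c1 * X - C c0 with hg
  have hgmonic : g.Monic := by
    rw [hg]
    have h1 : (C c1 * X - C c0 : K[X]).degree < ((2 : ℕ) : WithBot ℕ) := by
      apply lt_of_le_of_lt (degree_sub_le _ _)
      rw [max_lt_iff]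
      constructor
      · exact lt_of_le_of_lt (degree_C_mul_X_le c1) (by norm_num)
      · exact lt_of_le_of_lt degree_C_le (by norm_num)
    have : (X ^ 2 + C c1 * X - C c0 : K[X]) = X ^ 2 + (C c1 * X - C c0) := by ring
    rw [this]
    exact monic_X_pow_add h1
  have hglead : v g.leadingCoeff = 1 := by rw [hgmonic.leadingCoeff, map_one]
  have hgn : v (g.eval (ny : K)) < 1 := by
    have e : g.eval (ny : K)
        = ((ny ^ 2 + W.a₁ * nx * ny + W.a₃ * ny
            - (nx ^ 3 + W.a₂ * nx ^ 2 + W.a₄ * nx + W.a₆) : ℤ) : K)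
          + (r - (nx : K)) * (((W.a₁ : ℤ) : K) * (ny : K)
              - (r ^ 2 + r * (nx : K) + (nx : K) ^ 2) - ((W.a₂ : ℤ) : K) * (r + (nx : K))
              - ((W.a₄ : ℤ) : K)) := by
      simp only [hg, hc1, hc0, eval_sub, eval_add, eval_mul, eval_pow, eval_X, eval_C]
      push_cast
      ring
    rw [e]
    apply v.map_add_lt (v_intCast_lt_one_of_dvd v hvℓ heqdvd)
    rw [map_mul]
    have hrn' : v (r - (nx : K)) < 1 := by rw [← Valuation.map_neg, neg_sub]; exact hrn
    have hbig : v (((W.a₁ : ℤ) : K) * (ny : K)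
              - (r ^ 2 + r * (nx : K) + (nx : K) ^ 2) - ((W.a₂ : ℤ) : K) * (r + (nx : K))
              - ((W.a₄ : ℤ) : K)) ≤ 1 := by
      have m1 : ∀ a b : K, v a ≤ 1 → v b ≤ 1 → v (a * b) ≤ 1 := fun a b ha hb => by
        rw [map_mul]; exact mul_le_one' ha hb
      refine v.map_sub_le (v.map_sub_le (v.map_sub_le ?_ ?_) ?_) (hvint _)
      · exact m1 _ _ (hvint _) (hvint _)
      · refine v.map_add_le (v.map_add_le ?_ ?_) ?_
        · rw [sq]; exact m1 _ _ hvr hvr
        · exact m1 _ _ hvr (hvint _)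
        · rw [sq]; exact m1 _ _ (hvint _) (hvint _)
      · exact m1 _ _ (hvint _) (v.map_add_le hvr (hvint _))
    calc v (r - (nx : K)) * v _ ≤ v (r - (nx : K)) * 1 := mul_le_mul_right hbig _
      _ = v (r - (nx : K)) := mul_one _
      _ < 1 := hrn'
  obtain ⟨y, hy0, hyn⟩ := exists_root_near v (IsAlgClosed.splits g) hglead (ny : K) hgn
  -- the lifted point
  have heq : WK.Equation r y := by
    rw [Affine.equation_iff']
    simp only [hWK, WeierstrassCurve.map_a₁, WeierstrassCurve.map_a₂, WeierstrassCurve.map_a₃,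
      WeierstrassCurve.map_a₄, WeierstrassCurve.map_a₆, eq_intCast]
    simp only [hg, hc1, hc0, eval_sub, eval_add, eval_mul, eval_pow, eval_X, eval_C] at hy0
    linear_combination hy0
  have hns : WK.Nonsingular r y := (WK.equation_iff_nonsingular_of_Δ_ne_zero hΔK).mp heq
  refine ⟨r, y, hns, nx, ny, ?_, ?_, ?_, ?_⟩
  · exact (A1Final.nsmul_eq_zero_iff_preΨ' hns hpodd).mpr hr0
  · rw [← Valuation.map_neg, neg_sub]; exact hrn
  · rw [← Valuation.map_neg, neg_sub]; exact hyn
  · have hm : v (((2 * ny + W.a₁ * nx + W.a₃ : ℤ)) : K) = 1 :=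
      v_intCast_eq_one_of_not_dvd v hℓ.out hvℓ hψ2
    have e : 2 * y + ((W.a₁ : ℤ) : K) * r + ((W.a₃ : ℤ) : K)
        = ((2 * ny + W.a₁ * nx + W.a₃ : ℤ) : K)
          + (2 * (y - (ny : K)) + ((W.a₁ : ℤ) : K) * (r - (nx : K))) := by
      push_cast; ring
    rw [e, v.map_add_eq_of_lt_left, hm]
    rw [hm]
    apply v.map_add_lt
    · rw [map_mul]
      have h2 : v (2 : K) ≤ 1 := by
        have := hvint 2; simpa using this
      have hyn' : v (y - (ny : K)) < 1 := by rw [← Valuation.map_neg, neg_sub]; exact hyn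
      calc v (2 : K) * v (y - (ny : K)) ≤ 1 * v (y - (ny : K)) := mul_le_mul_left h2 _
        _ = v (y - (ny : K)) := one_mul _
        _ < 1 := hyn'
    · rw [map_mul]
      have hrn' : v (r - (nx : K)) < 1 := by rw [← Valuation.map_neg, neg_sub]; exact hrn
      calc v ((W.a₁ : ℤ) : K) * v (r - (nx : K)) ≤ 1 * v (r - (nx : K)) :=
            mul_le_mul_left (hvint _) _
        _ = v (r - (nx : K)) := one_mul _
        _ < 1 := hrn'

end Lift

section QbarForm

local notation "Qbar" => AlgebraicClosure ℚ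

theorem baseChange_eq_map (W : WeierstrassCurve ℤ) :
    ((W.map (Int.castRingHom ℚ))⁄Qbar) = (W.map (Int.castRingHom Qbar)).toAffine := by
  change (W.map (Int.castRingHom ℚ)).map (algebraMap ℚ Qbar) = W.map (Int.castRingHom Qbar)
  rw [WeierstrassCurve.map_map,
    show ((algebraMap ℚ Qbar).comp (Int.castRingHom ℚ)) = Int.castRingHom Qbar from
      RingHom.ext_int _ _]

/-- **(EC-c), `ℚ̄` form.**  `A` a valuation subring of `ℚ̄` over a good prime `ℓ ≠ p`, `p` odd,
`p ∣ #W̃(𝔽_ℓ)`.  Then there is a nonzero `p`-torsion point of `W` over `ℚ̄` whose coordinates are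
congruent modulo the maximal ideal of `A` to rational integers, and whose reduction is not a
2-torsion point. -/
theorem exists_torsion_lift_Qbar (W : WeierstrassCurve ℤ) {ℓ p : ℕ} [Fact ℓ.Prime]
    (hp : p.Prime) (hp2 : p ≠ 2) (hℓp : ℓ ≠ p)
    (A : ValuationSubring Qbar) (hA : A.LiesOverPrime ℓ) (hΔ : ¬ (ℓ : ℤ) ∣ W.Δ)
    (hcard : p ∣ Nat.card (W.reductionMod ℓ).toAffine.Point) :
    ∃ (x y : Qbar) (h : ((W.map (Int.castRingHom ℚ))⁄Qbar).Nonsingular x y) (nx ny : ℤ),
      p • Point.some x y h = 0 ∧ x - (nx : Qbar) ∈ A.nonunits ∧ y - (ny : Qbar) ∈ A.nonunits ∧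
      A.valuation (2 * y + ((W.a₁ : ℤ) : Qbar) * x + ((W.a₃ : ℤ) : Qbar)) = 1 := by
  have hvℓ : A.valuation ((ℓ : ℕ) : Qbar) < 1 := hA
  rw [baseChange_eq_map]
  obtain ⟨x, y, h, nx, ny, h1, h2, h3, h4⟩ :=
    exists_torsion_lift A.valuation W hp hp2 hℓp hvℓ hΔ hcard
  exact ⟨x, y, h, nx, ny, h1, h2, h3, h4⟩

end QbarForm

end Fermat.Agent.ES.EC.TorsionLift20
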