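/-
Chapter (EC) of S41, unconditional (helper8, owner of the chapter).

`hirr : GaloisRepIsIrreducible ℚ E p`, `p` odd, `W` an integral model of `E`, `T` finite ⇒ there
is a good prime `ℓ ∉ T`, `ℓ ≠ p`, with `p ∤ #W̃(𝔽_ℓ) = ℓ + 1 - a_ℓ(W)`; equivalently the system of
eigenvalues `ℓ ↦ a_ℓ(W)` is not Eisenstein modulo any maximal ideal `𝔪 ∋ p` of `ℤ̄`.

Assembly of `ECMain8` (global part: Chebotarev + irreducibility), `LocalFix8` (a Frobenius fixes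
the lifted torsion point) and helper20's `TorsionLift20.exists_torsion_lift_Qbar` (lifting).
-/
import Mathlib
import Fermat.Agent.ES.EC.ECMain8
import Fermat.Agent.ES.EC.LocalFix8
import Fermat.Agent.ES.EC.TorsionLift20

set_option autoImplicit false

open WeierstrassCurve WeierstrassCurve.Affine WeierstrassCurve.Affine.Point
open Fermat.Agent.Lib.FrobeniusExists

namespace Fermat.Agent.ES.EC.ECFinal8

open Fermat.Agent.ES.EC.ECMain8 Fermat.Agent.ES.EC.LocalFix8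

/-- (EC-c), in the shape of `LocalFix8.TorsionLift`. -/
theorem torsionLift (W : WeierstrassCurve ℤ) {p : ℕ} (hp : p.Prime) (hp2 : p ≠ 2) :
    TorsionLift W p := by
  intro ℓ hℓ hℓp hgood hdvd A hA
  have : Fact ℓ.Prime := ⟨hℓ⟩
  obtain ⟨x, y, h, nx, ny, h1, h2, h3, h4⟩ :=
    Fermat.Agent.ES.EC.TorsionLift20.exists_torsion_lift_Qbar W hp hp2 hℓp A hA hgood hdvd
  refine ⟨x, y, h, nx, ny, h1, h2, h3, ?_⟩
  have e1 : ((W.map (Int.castRingHom ℚ))⁄Qbar).a₁ = ((W.a₁ : ℤ) : Qbar) := by simp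
  have e3 : ((W.map (Int.castRingHom ℚ))⁄Qbar).a₃ = ((W.a₃ : ℤ) : Qbar) := by simp
  rw [e1, e3]
  exact h4

/-- The local statement of chapter (EC), unconditional. -/
theorem localFix (W : WeierstrassCurve ℤ) {p : ℕ} (hp : p.Prime) (hp2 : p ≠ 2) : LocalFix W p :=
  localFix_of_torsionLift hp (torsionLift W hp hp2)

/-- **Chapter (EC).** -/
theorem exists_good_prime_not_dvd_card (E : WeierstrassCurve ℚ) [E.IsElliptic]
    {W : WeierstrassCurve ℤ} (hW : W.IsIntegralModelOf E) {p : ℕ} (hp : p.Prime) (hp2 : p ≠ 2)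
    (hirr : GaloisRepIsIrreducible (K := Qbar) ℚ E p) (T : Finset ℕ) :
    ∃ ℓ : ℕ, ℓ.Prime ∧ ℓ ∉ T ∧ W.IsGoodPrimeFor ℓ ∧ ℓ ≠ p ∧
      ¬ (p : ℤ) ∣ ((ℓ : ℤ) + 1 - W.apOfModel ℓ) :=
  ECMain8.exists_good_prime_not_dvd_card E hW hp hp2 hirr (localFix W hp hp2) T

/-- **Chapter (EC), ideal form.** -/
theorem exists_good_prime_not_eisenstein (E : WeierstrassCurve ℚ) [E.IsElliptic]
    {W : WeierstrassCurve ℤ} (hW : W.IsIntegralModelOf E) {p : ℕ} (hp : p.Prime) (hp2 : p ≠ 2)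
    (hirr : GaloisRepIsIrreducible (K := Qbar) ℚ E p)
    {𝔪 : Ideal (integralClosure ℤ ℂ)} (hmax : 𝔪.IsMaximal)
    (hpm : (p : integralClosure ℤ ℂ) ∈ 𝔪) (T : Finset ℕ) :
    ∃ ℓ : ℕ, ℓ.Prime ∧ ℓ ∉ T ∧ W.IsGoodPrimeFor ℓ ∧ ℓ ≠ p ∧
      ((W.apOfModel ℓ : ℤ) : integralClosure ℤ ℂ) - ((ℓ : integralClosure ℤ ℂ) + 1) ∉ 𝔪 :=
  ECMain8.exists_good_prime_not_eisenstein E hW hp hp2 hirr (localFix W hp hp2) hmax hpm T

/-- **Chapter (EC), in the shape S41 consumes**: an eigenform (given by its prime coefficients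
`c ℓ`) congruent to `E` modulo `𝔪` outside a finite set `T` is not Eisenstein modulo `𝔪`: there is
a good prime `ℓ ∉ T`, `ℓ ≠ p`, with `c ℓ ≢ ℓ + 1 mod 𝔪`. -/
theorem exists_coeff_not_eisenstein (E : WeierstrassCurve ℚ) [E.IsElliptic]
    {W : WeierstrassCurve ℤ} (hW : W.IsIntegralModelOf E) {p : ℕ} (hp : p.Prime) (hp2 : p ≠ 2)
    (hirr : GaloisRepIsIrreducible (K := Qbar) ℚ E p)
    {𝔪 : Ideal (integralClosure ℤ ℂ)} (hmax : 𝔪.IsMaximal)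
    (hpm : (p : integralClosure ℤ ℂ) ∈ 𝔪) (c : ℕ → ℂ) (T : Finset ℕ)
    (hcong : ∀ ℓ : ℕ, ℓ.Prime → W.IsGoodPrimeFor ℓ → ℓ ∉ T → ℓ ≠ p →
      ∃ a : integralClosure ℤ ℂ, (a : ℂ) = c ℓ ∧
        a - ((W.apOfModel ℓ : ℤ) : integralClosure ℤ ℂ) ∈ 𝔪) :
    ∃ ℓ : ℕ, ℓ.Prime ∧ ℓ ∉ T ∧ W.IsGoodPrimeFor ℓ ∧ ℓ ≠ p ∧
      ∀ a : integralClosure ℤ ℂ, (a : ℂ) = c ℓ →
        a - ((ℓ : integralClosure ℤ ℂ) + 1) ∉ 𝔪 :=
  ECMain8.exists_coeff_not_eisenstein E hW hp hp2 hirr (localFix W hp hp2) hmax hpm c T hcong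

end Fermat.Agent.ES.EC.ECFinal8
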