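import Mathlib
import Fermat.Prelude.Def_FLTPrelim_Ramification
import Fermat.Prelude.Def_FLTPrelim_Modularity
import Fermat.Prelude.Def_EllipticCurve_FrobeniusTrace
import Fermat.Agent.DivPoly.CountFinal

/-!
# (EC-c) Lifting torsion points from the reduction (helper29)

`L` an algebraically closed field, `A` a valuation subring of `L` lying over the prime `ℓ`,
`W` an integral Weierstrass curve with good reduction at `ℓ`, `p ≠ ℓ` a prime dividing the number
of points of `W` over `𝔽_ℓ`.  Then there is a point `(x, y)` of exact order `p` on `W_L` with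
`x, y ∈ A` whose residues lie in the prime field; in particular every Frobenius element `σ` at `A`
satisfies `v(σ x - x) < 1`, `v(σ y - y) < 1`.
-/

set_option autoImplicit false

open Polynomial

namespace Fermat.Agent.ES.EC.LiftTorsion29

section RootLift

variable {L : Type*} [Field L] [IsAlgClosed L] (A : ValuationSubring L)

/-- A root of the reduction of a monic polynomial over `A` lifts to a root in `A`. -/
theorem exists_root_lift_of_monic :
    ∀ (n : ℕ) (g : (↥A)[X]), g.natDegree = n → g.Monic →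
      ∀ t : IsLocalRing.ResidueField A, (g.map (IsLocalRing.residue A)).IsRoot t →
        ∃ a : A, g.IsRoot a ∧ IsLocalRing.residue A a = t := by
  intro n
  induction n with
  | zero =>
    intro g hdeg hmon t ht
    have h1 : g = 1 := by
      rw [eq_C_of_natDegree_eq_zero hdeg] at hmon ⊢
      rw [Monic, leadingCoeff_C] at hmon
      rw [hmon, C_1]
    rw [h1, Polynomial.map_one, IsRoot, eval_one] at ht
    exact absurd ht one_ne_zero
  | succ n ih =>
    intro g hdeg hmon t ht
    -- a root of `g` in `L`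
    have hdegL : (g.map (algebraMap A L)).degree ≠ 0 := by
      rw [degree_map_eq_of_injective (FaithfulSMul.algebraMap_injective A L),
        degree_eq_natDegree hmon.ne_zero, hdeg]
      exact_mod_cast (Nat.succ_ne_zero n)
    obtain ⟨x, hx⟩ := IsAlgClosed.exists_root (g.map (algebraMap A L)) hdegL
    have hxint : IsIntegral A x := ⟨g, hmon, by rwa [eval₂_eq_eval_map]⟩
    obtain ⟨a, ha⟩ := (IsIntegrallyClosed.isIntegral_iff (R := A) (K := L)).1 hxint
    have hga : g.IsRoot a := by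
      apply FaithfulSMul.algebraMap_injective A L
      rw [map_zero, ← eval₂_at_apply, eval₂_eq_eval_map, ha]
      exact hx
    have hfac : (X - C a) * (g /ₘ (X - C a)) = g := mul_divByMonic_eq_iff_isRoot.mpr hga
    set g₁ := g /ₘ (X - C a) with hg₁
    have hmon₁ : g₁.Monic := by
      refine Monic.of_mul_monic_left (monic_X_sub_C a) ?_
      rw [hfac]; exact hmon
    have hdeg₁ : g₁.natDegree = n := by
      rw [hg₁, natDegree_divByMonic g (monic_X_sub_C a), natDegree_X_sub_C, hdeg]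
      rfl
    rw [← hfac, Polynomial.map_mul, Polynomial.map_sub, map_X, map_C, IsRoot, eval_mul, eval_sub,
      eval_X, eval_C, mul_eq_zero] at ht
    rcases ht with ht | ht
    · exact ⟨a, hga, (sub_eq_zero.mp ht).symm⟩
    · obtain ⟨b, hb, hbt⟩ := ih g₁ hdeg₁ hmon₁ t ht
      refine ⟨b, ?_, hbt⟩
      rw [← hfac, IsRoot, eval_mul, hb, mul_zero]

/-- A root of the reduction of a polynomial over `A` with unit leading coefficient lifts. -/
theorem exists_root_lift (g : (↥A)[X]) (hlc : IsUnit g.leadingCoeff)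
    (t : IsLocalRing.ResidueField A) (ht : (g.map (IsLocalRing.residue A)).IsRoot t) :
    ∃ a : A, g.IsRoot a ∧ IsLocalRing.residue A a = t := by
  obtain ⟨u, hu⟩ := hlc
  have hmon : (C ((u⁻¹ : (↥A)ˣ) : ↥A) * g).Monic :=
    monic_C_mul_of_mul_leadingCoeff_eq_one (by rw [← hu]; exact u.inv_mul)
  have ht' : ((C ((u⁻¹ : (↥A)ˣ) : ↥A) * g).map (IsLocalRing.residue A)).IsRoot t := by
    rw [Polynomial.map_mul, IsRoot, eval_mul, ht, mul_zero]
  obtain ⟨a, ha, hat⟩ := exists_root_lift_of_monic A _ _ rfl hmon t ht'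
  refine ⟨a, ?_, hat⟩
  rw [IsRoot, eval_mul, eval_C] at ha
  have hunit : IsUnit (((u⁻¹ : (↥A)ˣ) : ↥A)) := (u⁻¹).isUnit
  exact (hunit.mul_right_eq_zero).mp ha

end RootLift

section Residue

variable {L : Type*} [Field L] (A : ValuationSubring L)

/-- If `A` lies over the prime `ℓ`, its residue field has characteristic `ℓ`. -/
theorem charP_residueField {ℓ : ℕ} (hℓ : ℓ.Prime) (hA : A.LiesOverPrime ℓ) :
    CharP (IsLocalRing.ResidueField A) ℓ := by
  rw [CharP.charP_iff_prime_eq_zero hℓ]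
  obtain ⟨hmem, hmax⟩ := ValuationSubring.mem_nonunits_iff_exists_mem_maximalIdeal.mp hA
  have h1 : (⟨(ℓ : L), hmem⟩ : A) = ((ℓ : ℕ) : A) := Subtype.ext (by simp)
  rw [h1, ← IsLocalRing.residue_eq_zero_iff, map_natCast] at hmax
  exact hmax

/-- The embedding of the prime field into the residue field. -/
noncomputable def primeEmb {ℓ : ℕ} (hℓ : ℓ.Prime) (hA : A.LiesOverPrime ℓ) :
    ZMod ℓ →+* IsLocalRing.ResidueField A :=
  haveI := charP_residueField A hℓ hA
  ZMod.castHom (dvd_refl ℓ) (IsLocalRing.ResidueField A)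

theorem primeEmb_intCast {ℓ : ℕ} (hℓ : ℓ.Prime) (hA : A.LiesOverPrime ℓ) (n : ℤ) :
    primeEmb A hℓ hA (n : ZMod ℓ) = IsLocalRing.residue A (n : A) := by
  rw [map_intCast, map_intCast]

theorem primeEmb_comp {ℓ : ℕ} (hℓ : ℓ.Prime) (hA : A.LiesOverPrime ℓ) :
    (primeEmb A hℓ hA).comp (Int.castRingHom (ZMod ℓ)) =
      (IsLocalRing.residue A).comp (Int.castRingHom A) :=
  RingHom.ext_int _ _

theorem primeEmb_pow {ℓ : ℕ} (hℓ : ℓ.Prime) (hA : A.LiesOverPrime ℓ) (t : ZMod ℓ) :
    (primeEmb A hℓ hA t) ^ ℓ = primeEmb A hℓ hA t := by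
  have : Fact ℓ.Prime := ⟨hℓ⟩
  rw [← map_pow, ZMod.pow_card]

/-- An integer prime to `ℓ` is a unit of `A`. -/
theorem isUnit_intCast_of_not_dvd {ℓ : ℕ} (hℓ : ℓ.Prime) (hA : A.LiesOverPrime ℓ) {n : ℤ}
    (hn : ¬ (ℓ : ℤ) ∣ n) : IsUnit (n : A) := by
  have : Fact ℓ.Prime := ⟨hℓ⟩
  by_contra hnu
  have h0 : IsLocalRing.residue A (n : A) = 0 :=
    (IsLocalRing.residue_eq_zero_iff _).mpr ((IsLocalRing.mem_maximalIdeal _).mpr hnu)
  rw [← primeEmb_intCast A hℓ hA, map_eq_zero] at h0
  exact hn ((ZMod.intCast_zmod_eq_zero_iff_dvd n ℓ).mp h0)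

end Residue

section Main

open WeierstrassCurve WeierstrassCurve.Affine

variable {L : Type*} [Field L] [IsAlgClosed L] [DecidableEq L] (A : ValuationSubring L)

theorem eval_map_apply' {R S : Type*} [CommRing R] [CommRing S] (f : R →+* S) (q : R[X]) (r : R) :
    (q.map f).eval (f r) = f (q.eval r) := by
  rw [eval_map, eval₂_at_apply]

/-- **(EC-c)** Lifting a point of order `p` from the reduction mod `ℓ`. -/
theorem exists_torsion_lift (W : WeierstrassCurve ℤ) {ℓ p : ℕ} (hℓ : ℓ.Prime) (hp : p.Prime)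
    (hpℓ : p ≠ ℓ) (hA : A.LiesOverPrime ℓ) (hgood : ¬ (ℓ : ℤ) ∣ W.Δ)
    (hdvd : p ∣ (W.reductionMod ℓ).card) :
    ∃ (a b : A) (x' y' : ZMod ℓ)
      (h : (W.map (Int.castRingHom L)).toAffine.Nonsingular (a : L) (b : L)),
      p • Point.some (a : L) (b : L) h = 0 ∧
        IsLocalRing.residue A a = primeEmb A hℓ hA x' ∧
        IsLocalRing.residue A b = primeEmb A hℓ hA y' := by
  classical
  have : Fact ℓ.Prime := ⟨hℓ⟩
  have : Fact p.Prime := ⟨hp⟩
  set ι := primeEmb A hℓ hA with hι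
  set res := IsLocalRing.residue A with hres
  -- Cauchy
  obtain ⟨P, hP⟩ := exists_prime_addOrderOf_dvd_card' (G := (W.reductionMod ℓ).toAffine.Point) p hdvd
  have hpP : p • P = 0 := by rw [← hP]; exact addOrderOf_nsmul_eq_zero P
  rcases P with _ | ⟨x', y', h'⟩
  · exfalso
    have : addOrderOf (0 : (W.reductionMod ℓ).toAffine.Point) = 1 := addOrderOf_zero
    rw [show (Point.zero : (W.reductionMod ℓ).toAffine.Point) = 0 from rfl, this] at hP
    exact hp.one_lt.ne hP
  have hΨ' : ((W.reductionMod ℓ).ΨSq (p : ℤ)).eval x' = 0 :=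
    (Fermat.Agent.DivPoly.CountFinal.nsmul_eq_zero_iff h' p hp.one_le).mp hpP
  -- the division polynomial over `A`
  set WA : WeierstrassCurve A := W.map (Int.castRingHom A) with hWA
  have hmapres : (WA.ΨSq (p : ℤ)).map res = ((W.reductionMod ℓ).ΨSq (p : ℤ)).map ι := by
    rw [hWA, WeierstrassCurve.reductionMod, map_ΨSq, map_ΨSq, Polynomial.map_map,
      Polynomial.map_map, hι, primeEmb_comp]
  have hroot : ((WA.ΨSq (p : ℤ)).map res).IsRoot (ι x') := by
    rw [hmapres, IsRoot, eval_map_apply', hΨ', map_zero]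
  have hpu : IsUnit (((p : ℤ) : A)) := by
    refine isUnit_intCast_of_not_dvd A hℓ hA ?_
    intro hd
    have := (Nat.prime_dvd_prime_iff_eq hℓ hp).mp (by exact_mod_cast hd)
    exact hpℓ this.symm
  have hlc : IsUnit (WA.ΨSq (p : ℤ)).leadingCoeff := by
    rw [WeierstrassCurve.leadingCoeff_ΨSq WA hpu.ne_zero]
    exact hpu.pow 2
  obtain ⟨a, ha, hat⟩ := exists_root_lift A _ hlc (ι x') hroot
  -- the `y`-coordinate
  set c1 : A := (W.a₁ : A) * a + (W.a₃ : A) with hc1
  set c0 : A := a ^ 3 + (W.a₂ : A) * a ^ 2 + (W.a₄ : A) * a + (W.a₆ : A) with hc0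
  set hA' : A[X] := X ^ 2 + (C c1 * X + C (-c0)) with hhA
  have hmon : hA'.Monic :=
    monic_X_pow_add (lt_of_le_of_lt (degree_linear_le) (by norm_num))
  have heq' := (equation_iff _ _).mp h'.1
  simp only [WeierstrassCurve.reductionMod, map_a₁, map_a₂, map_a₃, map_a₄, map_a₆,
    eq_intCast] at heq'
  have hcast : ∀ n : ℤ, res (n : A) = ι (n : ZMod ℓ) := fun n =>
    (primeEmb_intCast A hℓ hA n).symm
  have hat' : res a = ι x' := hat
  have hrc1 : res c1 = ι (W.a₁ : ZMod ℓ) * ι x' + ι (W.a₃ : ZMod ℓ) := by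
    rw [hc1, map_add, map_mul, hcast, hcast, hat']
  have hrc0 : res c0 = ι x' ^ 3 + ι (W.a₂ : ZMod ℓ) * ι x' ^ 2 + ι (W.a₄ : ZMod ℓ) * ι x' +
      ι (W.a₆ : ZMod ℓ) := by
    rw [hc0, map_add, map_add, map_add, map_mul, map_mul, map_pow, map_pow, hcast, hcast, hcast,
      hat']
  have hrooty : (hA'.map res).IsRoot (ι y') := by
    have h2 := congrArg ι heq'
    simp only [map_add, map_mul, map_pow] at h2
    rw [hhA, IsRoot]
    simp only [Polynomial.map_add, Polynomial.map_mul, Polynomial.map_pow, map_X, map_C,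
      Polynomial.map_neg, eval_add, eval_mul, eval_pow, eval_X, eval_C, eval_neg, map_neg]
    rw [hrc1, hrc0]
    linear_combination h2
  obtain ⟨b, hb, hbt⟩ := exists_root_lift_of_monic A _ hA' rfl hmon (ι y') hrooty
  -- assemble
  have hsub : (A.subtype).comp (Int.castRingHom A) = Int.castRingHom L := RingHom.ext_int _ _
  have hWL : W.map (Int.castRingHom L) = WA.map A.subtype := by
    rw [hWA, WeierstrassCurve.map_map, hsub]
  have hcastL : ∀ n : ℤ, ((n : A) : L) = (n : L) := fun n => by simp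
  have hEq : (W.map (Int.castRingHom L)).toAffine.Equation (a : L) (b : L) := by
    rw [equation_iff]
    simp only [map_a₁, map_a₂, map_a₃, map_a₄, map_a₆, eq_intCast]
    rw [hhA, IsRoot] at hb
    simp only [eval_add, eval_mul, eval_pow, eval_X, eval_C, hc1, hc0] at hb
    have hb' := congrArg (A.subtype) hb
    simp only [map_add, map_mul, map_pow, map_neg, map_zero, ValuationSubring.subtype_apply,
      hcastL] at hb'
    linear_combination hb'
  have hΔu : IsUnit ((W.Δ : ℤ) : A) := isUnit_intCast_of_not_dvd A hℓ hA hgood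
  have hΔ : (W.map (Int.castRingHom L)).Δ ≠ 0 := by
    rw [WeierstrassCurve.map_Δ, eq_intCast, ← hcastL]
    intro h0
    exact hΔu.ne_zero (Subtype.ext h0)
  have hns : (W.map (Int.castRingHom L)).toAffine.Nonsingular (a : L) (b : L) :=
    (equation_iff_nonsingular_of_Δ_ne_zero hΔ).mp hEq
  refine ⟨a, b, x', y', hns, ?_, hat, hbt⟩
  refine (Fermat.Agent.DivPoly.CountFinal.nsmul_eq_zero_iff hns p hp.one_le).mpr ?_
  have : ((W.map (Int.castRingHom L)).ΨSq (p : ℤ)) = (WA.ΨSq (p : ℤ)).map A.subtype := by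
    rw [hWL, map_ΨSq]
  rw [this]
  have h3 := eval_map_apply' A.subtype (WA.ΨSq (p : ℤ)) a
  rw [ha, map_zero] at h3
  exact h3

end Main

section Frobenius

variable {K L : Type*} [Field K] [Field L] [Algebra K L] (A : ValuationSubring L)

/-- A Frobenius element at `A` moves an element of `A` whose residue lies in the prime field by an
element of the maximal ideal. -/
theorem frob_sub_mem_nonunits {ℓ : ℕ} (hℓ : ℓ.Prime) (hA : A.LiesOverPrime ℓ) {σ : L ≃ₐ[K] L}
    (hσ : A.IsFrobeniusAt σ ℓ) (a : A) (t : ZMod ℓ)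
    (hat : IsLocalRing.residue A a = primeEmb A hℓ hA t) :
    σ (a : L) - (a : L) ∈ A.nonunits := by
  set g : A.decompositionSubgroup K := ⟨σ, hσ.mem_decompositionSubgroup⟩ with hg
  have h1 : g • (IsLocalRing.residue A a) = IsLocalRing.residue A a := by
    rw [hσ.smul_residue_eq, hat, primeEmb_pow]
  rw [← IsLocalRing.ResidueField.residue_smul, ← sub_eq_zero, ← map_sub,
    IsLocalRing.residue_eq_zero_iff] at h1
  have h2 : ((g • a - a : A) : L) = σ (a : L) - (a : L) := rfl
  rw [← h2]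
  exact ValuationSubring.mem_nonunits_iff_exists_mem_maximalIdeal.mpr ⟨_, h1⟩

theorem valuation_frob_sub_lt_one {ℓ : ℕ} (hℓ : ℓ.Prime) (hA : A.LiesOverPrime ℓ) {σ : L ≃ₐ[K] L}
    (hσ : A.IsFrobeniusAt σ ℓ) (a : A) (t : ZMod ℓ)
    (hat : IsLocalRing.residue A a = primeEmb A hℓ hA t) :
    A.valuation (σ (a : L) - (a : L)) < 1 :=
  (ValuationSubring.mem_nonunits_iff (A := A)).mp (frob_sub_mem_nonunits A hℓ hA hσ a t hat)

end Frobenius

section Packaged

open WeierstrassCurve WeierstrassCurve.Affine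

variable {K L : Type*} [Field K] [Field L] [Algebra K L] [IsAlgClosed L] [DecidableEq L]
  (A : ValuationSubring L)

/-- **(EC-c), packaged**: a point of order `p` on `W_L` with `A`-integral coordinates which every
Frobenius element at `A` moves by less than `1` in both coordinates. -/
theorem exists_torsion_point_frob (W : WeierstrassCurve ℤ) {ℓ p : ℕ} (hℓ : ℓ.Prime) (hp : p.Prime)
    (hpℓ : p ≠ ℓ) (hA : A.LiesOverPrime ℓ) (hgood : ¬ (ℓ : ℤ) ∣ W.Δ)
    (hdvd : p ∣ (W.reductionMod ℓ).card) :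
    ∃ (x y : L) (h : (W.map (Int.castRingHom L)).toAffine.Nonsingular x y),
      A.valuation x ≤ 1 ∧ A.valuation y ≤ 1 ∧ p • Point.some x y h = 0 ∧
        ∀ σ : L ≃ₐ[K] L, A.IsFrobeniusAt σ ℓ →
          A.valuation (σ x - x) < 1 ∧ A.valuation (σ y - y) < 1 := by
  obtain ⟨a, b, x', y', h, hp0, hat, hbt⟩ := exists_torsion_lift A W hℓ hp hpℓ hA hgood hdvd
  refine ⟨a, b, h, (ValuationSubring.valuation_le_one_iff A _).mpr a.2,
    (ValuationSubring.valuation_le_one_iff A _).mpr b.2, hp0, fun σ hσ => ⟨?_, ?_⟩⟩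
  · exact valuation_frob_sub_lt_one A hℓ hA hσ a x' hat
  · exact valuation_frob_sub_lt_one A hℓ hA hσ b y' hbt

end Packaged

end Fermat.Agent.ES.EC.LiftTorsion29
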