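/-
Chapter (EC) of S41: the local statement `ECMain8.LocalFix` (helper20).

At a good prime `ℓ ≠ p` with `p ∣ #W̃(𝔽_ℓ)` (`p` odd), every Frobenius element at a place over `ℓ`
fixes a nonzero `p`-torsion point: lift a point of order `p` (`TorsionLift20`), use the Frobenius
congruence (`ChebQbar23.sub_pow_mem_nonunits`) and the injectivity of reduction on prime-to-`ℓ`
torsion (`CongE1_20`).
-/
import Mathlib
import Fermat.Agent.ES.EC.ECMain8
import Fermat.Agent.ES.EC.TorsionLift20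
import Fermat.Agent.ES.EC.CongE1_20

set_option autoImplicit false

open WeierstrassCurve WeierstrassCurve.Affine WeierstrassCurve.Affine.Point
open Fermat.Agent.Lib.FrobeniusExists

namespace Fermat.Agent.ES.EC.LocalFix20

open Fermat.Agent.ES.EC.ECMain8 Fermat.Agent.ES.EC.TorsionLift20 Fermat.Agent.ES.EC.CongE1_20
open Fermat.Agent.S05.Kernel

/-- `x ≡ n` modulo the maximal ideal, `n` a rational integer: then `φ x ≡ x` for a Frobenius
element `φ` at `ℓ`. -/
theorem frob_sub_self_lt_one {A : ValuationSubring Qbar} {φ : GQ} {ℓ : ℕ} (hℓ : ℓ.Prime)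
    (hA : A.LiesOverPrime ℓ) (hφ : A.IsFrobeniusAt φ ℓ) {x : Qbar} {n : ℤ}
    (hx : A.valuation (x - (n : Qbar)) < 1) : A.valuation (φ x - x) < 1 := by
  have hvℓ : A.valuation ((ℓ : ℕ) : Qbar) < 1 := hA
  have hvn : A.valuation (n : Qbar) ≤ 1 := v_intCast_le_one A.valuation n
  have hvx : A.valuation x ≤ 1 := by
    have : x = (x - (n : Qbar)) + (n : Qbar) := by ring
    rw [this]
    exact A.valuation.map_add_le hx.le hvn
  have hxA : x ∈ A := (A.valuation_le_one_iff x).mp hvx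
  -- Frobenius congruence
  have h1 : A.valuation (φ x - x ^ ℓ) < 1 :=
    Fermat.Agent.ES.GAL.ChebQbar23.sub_pow_mem_nonunits hφ hxA
  -- `x ^ ℓ ≡ n ^ ℓ`
  have h2 : A.valuation (x ^ ℓ - (n : Qbar) ^ ℓ) < 1 := by
    rw [← geom_sum₂_mul, map_mul]
    have hs : A.valuation (∑ i ∈ Finset.range ℓ, x ^ i * (n : Qbar) ^ (ℓ - 1 - i)) ≤ 1 := by
      apply A.valuation.map_sum_le
      intro i _
      rw [map_mul, map_pow, map_pow]
      exact mul_le_one' (pow_le_one' hvx _) (pow_le_one' hvn _)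
    calc A.valuation (∑ i ∈ Finset.range ℓ, x ^ i * (n : Qbar) ^ (ℓ - 1 - i))
          * A.valuation (x - (n : Qbar))
        ≤ 1 * A.valuation (x - (n : Qbar)) := mul_le_mul_left hs _
      _ = A.valuation (x - (n : Qbar)) := one_mul _
      _ < 1 := hx
  -- `n ^ ℓ ≡ n` (Fermat)
  have h3 : A.valuation ((n : Qbar) ^ ℓ - (n : Qbar)) < 1 := by
    have hdvd : (ℓ : ℤ) ∣ n ^ ℓ - n := by
      have : Fact ℓ.Prime := ⟨hℓ⟩
      rw [← ZMod.intCast_zmod_eq_zero_iff_dvd]
      push_cast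
      rw [ZMod.pow_card, sub_self]
    have := v_intCast_lt_one_of_dvd A.valuation hvℓ hdvd
    push_cast at this
    exact this
  have h4 : A.valuation ((n : Qbar) - x) < 1 := by
    rw [← Valuation.map_neg, neg_sub]; exact hx
  have e : φ x - x = (φ x - x ^ ℓ) + (x ^ ℓ - (n : Qbar) ^ ℓ) + ((n : Qbar) ^ ℓ - (n : Qbar))
      + ((n : Qbar) - x) := by ring
  rw [e]
  exact A.valuation.map_add_lt (A.valuation.map_add_lt (A.valuation.map_add_lt h1 h2) h3) h4

/-- **The local statement of chapter (EC).** -/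
theorem localFix (W : WeierstrassCurve ℤ) {p : ℕ} (hp : p.Prime) (hp2 : p ≠ 2) :
    LocalFix W p := by
  intro ℓ hℓ hℓp hgood hcard A φ hA hφ
  have : Fact ℓ.Prime := ⟨hℓ⟩
  obtain ⟨x, y, h, nx, ny, hpP, hx, hy, hu⟩ :=
    exists_torsion_lift_Qbar W hp hp2 hℓp A hA hgood hcard
  have hvℓ : A.valuation ((ℓ : ℕ) : Qbar) < 1 := hA
  -- coefficients
  have hcoef : ∀ a : ℤ, algebraMap ℚ Qbar ((Int.castRingHom ℚ) a) = (a : Qbar) := fun a => by
    simp
  have ha₁ : ((W.map (Int.castRingHom ℚ))⁄Qbar).a₁ = ((W.a₁ : ℤ) : Qbar) := by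
    simp [WeierstrassCurve.baseChange]
  have ha₂ : ((W.map (Int.castRingHom ℚ))⁄Qbar).a₂ = ((W.a₂ : ℤ) : Qbar) := by
    simp [WeierstrassCurve.baseChange]
  have ha₃ : ((W.map (Int.castRingHom ℚ))⁄Qbar).a₃ = ((W.a₃ : ℤ) : Qbar) := by
    simp [WeierstrassCurve.baseChange]
  have ha₄ : ((W.map (Int.castRingHom ℚ))⁄Qbar).a₄ = ((W.a₄ : ℤ) : Qbar) := by
    simp [WeierstrassCurve.baseChange]
  have ha₆ : ((W.map (Int.castRingHom ℚ))⁄Qbar).a₆ = ((W.a₆ : ℤ) : Qbar) := by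
    simp [WeierstrassCurve.baseChange]
  have hint : IntegralCoeffs A.valuation ((W.map (Int.castRingHom ℚ))⁄Qbar) := by
    refine ⟨?_, ?_, ?_, ?_, ?_⟩
    · rw [ha₁]; exact v_intCast_le_one _ _
    · rw [ha₂]; exact v_intCast_le_one _ _
    · rw [ha₃]; exact v_intCast_le_one _ _
    · rw [ha₄]; exact v_intCast_le_one _ _
    · rw [ha₆]; exact v_intCast_le_one _ _
  -- the Frobenius image of the point
  have h' : ((W.map (Int.castRingHom ℚ))⁄Qbar).Nonsingular (φ.toAlgHom x) (φ.toAlgHom y) :=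
    (WeierstrassCurve.Affine.baseChange_nonsingular (W.map (Int.castRingHom ℚ))
      (f := φ.toAlgHom) φ.toAlgHom.injective x y).mpr h
  have hmap : Point.map (W' := W.map (Int.castRingHom ℚ)) φ.toAlgHom (Point.some x y h)
      = Point.some (φ.toAlgHom x) (φ.toAlgHom y) h' := rfl
  have hpP' : p • Point.some (φ.toAlgHom x) (φ.toAlgHom y) h' = 0 := by
    have := congrArg (Point.map (W' := W.map (Int.castRingHom ℚ)) φ.toAlgHom) hpP
    rw [map_nsmul, _root_.map_zero, hmap] at this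
    exact this
  have hvp : A.valuation ((p : ℕ) : Qbar) = 1 := by
    have hnd : ¬ (ℓ : ℤ) ∣ (p : ℤ) := by
      rw [Int.natCast_dvd_natCast]
      intro hd
      exact hℓp ((Nat.prime_dvd_prime_iff_eq hℓ hp).mp hd)
    have := v_intCast_eq_one_of_not_dvd A.valuation hℓ hvℓ hnd
    rwa [Int.cast_natCast] at this
  have hu' : A.valuation (2 * y + ((W.map (Int.castRingHom ℚ))⁄Qbar).a₁ * x + ((W.map (Int.castRingHom ℚ))⁄Qbar).a₃) = 1 := by rw [ha₁, ha₃]; exact hu
  have hfx : A.valuation (φ x - x) < 1 := frob_sub_self_lt_one hℓ hA hφ hx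
  have hfy : A.valuation (φ y - y) < 1 := frob_sub_self_lt_one hℓ hA hφ hy
  have hEq := eq_of_congruent_of_nsmul_eq_zero hint h' h hfx hfy hu' hvp hpP' hpP
  rw [Point.some.injEq] at hEq
  exact ⟨x, y, h, hpP, hEq.1, hEq.2⟩

end Fermat.Agent.ES.EC.LocalFix20
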